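import Fermat.Agent.LevelP.StepC.PicReduction

/-!
# `redPic` is `reductionModL`
-/

set_option autoImplicit false
set_option linter.unusedSectionVars false
set_option synthInstance.maxHeartbeats 400000

noncomputable section

namespace Fermat.Agent.LevelP.StepC

open AlgebraicCurve ModularCurve IsLocalRing Fermat.Agent.Curve Fermat.Agent.Reduction

local notation "Qb" => AlgebraicClosure ℚ

variable (M : ℕ) [NeZero M] {p : ℕ} [Fact p.Prime] (hpM : ¬ p ∣ M) (hp5 : 5 ≤ p)
  (A : ValuationSubring Qb) (hA : A.LiesOverPrime p)
  [IsFunctionField1 Qb (modularFunctionFieldBar M)]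
  [IsFunctionField1 (ResidueField A) (modularFunctionFieldFullC (ResidueField A) M)]
  [IsAlgClosed (ResidueField A)]
  {r : Place Qb (modularFunctionFieldBar M) →
    Place (ResidueField A) (modularFunctionFieldFullC (ResidueField A) M)}
  (hr : (gaussDataX0 M hpM A hA).PlaceCompat r) (hdeg : ∀ P, (r P).deg = P.deg)

set_option maxHeartbeats 1000000 in
include hp5 in
/-- `redPic` is `reductionModL`. -/
theorem redPic_eq_reductionModL (x : JZero M) :
    redPic hr hdeg x = reductionModL A M x := by
  obtain ⟨D, rfl⟩ := Pic0.mk_surjective x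
  have h : ReductionInputsModL A M := reductionInputsModL M hpM A hA
    ⟨fun h => absurd h (by omega), fun h => absurd h (by omega)⟩
  rw [reductionModL_mk h]
  refine congrArg Pic0.mk (Subtype.ext ?_)
  exact Reduction.mapDomain_eq_of_degree_eq_zero Reduction.one_le_deg Reduction.weakRiemann
    (isPlaceReductionModL_of_placeCompat M hpM A hA hdeg hr)
    (isPlaceReductionModL_placeReductionModL h) (principalGeneratedByIntegral M hpM A hA)
    (Divisor.mem_degZero.mp D.2)

end Fermat.Agent.LevelP.StepC
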