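import Fermat.Agent.LevelP.StepC.NodeCoefficient
import Fermat.Agent.LevelP.StepC.RedModL
import Fermat.Agent.Reduction.ModularBasics
import Mathlib.Algebra.FreeAlgebra

/-!
# Step c: an Eisenstein residue of a new, non-Eisenstein eigenclass is a `p`-th power
-/

set_option autoImplicit false
set_option linter.style.haveILetI false
set_option linter.unusedSectionVars false
set_option synthInstance.maxHeartbeats 400000

noncomputable section

namespace Fermat.Agent.LevelP.StepC

/-- Shortcut for a slow instance search; reducibly the instance that search finds. -/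
local instance (priority := high) algebraLaurentShortcutResiduePower (K : Type*) [Field K]
    (S : IntermediateField K (LaurentSeries K)) : Algebra K S :=
  inferInstance

open AlgebraicCurve ModularCurve IsLocalRing Fermat.Agent.Curve Fermat.Agent.BadPrime
open Fermat.Agent.Reduction (jBar jRes gaussDataX0 GaussData genusFF_le_modL)

local notation "Qb" => AlgebraicClosure ℚ

theorem eq_zero_of_dvd_smul {G : Type*} [AddCommGroup G] {p : ℕ} (hp : p.Prime) {n : ℤ}
    (hn : ¬ (p : ℤ) ∣ n) {x : G} (hpx : (p : ℤ) • x = 0) (hnx : n • x = 0) : x = 0 := by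
  obtain ⟨u, v, huv⟩ := (Nat.prime_iff_prime_int.mp hp).coprime_iff_not_dvd.mpr hn
  rw [← one_zsmul x, ← huv, add_zsmul, mul_zsmul, mul_zsmul, hpx, hnx, zsmul_zero, zsmul_zero,
    add_zero]

variable {A : ValuationSubring Qb} {p M : ℕ} [Fact p.Prime] [NeZero M]
  [IsAlgClosed (ResidueField A)]
  {T : TwoCompData p A (modularFunctionFieldBar (M * p))
    (modularFunctionFieldFullC (ResidueField A) M)}

set_option maxHeartbeats 2000000 in
/-- Step c. -/
theorem exists_pow_eq_residue (hp5 : 5 ≤ p) (hpM : ¬ p ∣ M) (hA : A.LiesOverPrime p)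
    (hT : ∀ (f : modularFunctionFieldBar (M * p))
      (g : modularFunctionFieldFullC (ResidueField A) M),
      (∃ h : f ∈ T.V false, T.red false ⟨f, h⟩ = g) ↔
        HasGaussRed (residue A) (f : LaurentSeries Qb) (g : LaurentSeries (ResidueField A)))
    (hw : ((T.w : modularFunctionFieldBar (M * p)) : LaurentSeries Qb) =
      coeffEmb Qb (modularUnitSeries p))
    (hnode : ∀ y, T.On y false →
      (T.IsNode y → 0 ≤ (T.loc y false).ord (X0.jResM A M)) ∧
      (¬ T.IsNode y → 0 ≤ (T.loc y false).ord (X0.jResM A M) →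
        (T.loc y false).ord (T.residueAt false T.w) = 0))
    {S : Type} (ι : S → Nat.Primes) (hι : ∀ s, ¬ (ι s : ℕ) ∣ M * p) (a : S → ℤ)
    (t : FreeAlgebra ℤ S)
    (ht : ∀ y : JZero M,
      reductionModL A M (FreeAlgebra.lift ℤ (fun s => heckeOperatorBar M (ι s)) t y) = 0)
    (hta : ¬ (p : ℤ) ∣ FreeAlgebra.lift ℤ a t)
    (hne : ∃ s, ¬ (p : ℤ) ∣ a s - (ι s : ℕ) - 1)
    {D : Divisor Qb (modularFunctionFieldBar (M * p))}
    (hD : D ∈ (Divisor.degZero : AddSubgroup (Divisor Qb (modularFunctionFieldBar (M * p)))))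
    (heig : ∀ s, heckeOperatorBar (M * p) (ι s) (Pic0.mk ⟨D, hD⟩) = a s • Pic0.mk ⟨D, hD⟩)
    {f : modularFunctionFieldBar (M * p)} (hf : f ≠ 0) (hdiv : ∀ P, ((p : ℤ) • D) P = P.ord f)
    (hv : (T.V false).valuation f = 1) {c : ℤ}
    (hc : ∀ y, T.On y false →
      (T.IsNode y → (p : ℤ) ∣ (T.loc y false).ord (T.residueAt false f) - c * T.r y) ∧
      (¬ T.IsNode y → (p : ℤ) ∣ (T.loc y false).ord (T.residueAt false f))) :
    ∃ h : modularFunctionFieldFullC (ResidueField A) M, h ^ p = T.residueAt false f := by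
  classical
  have hp : p.Prime := Fact.out
  have hpZ : (p : ℤ) ≠ 0 := Int.natCast_ne_zero.mpr hp.ne_zero
  haveI : NeZero (M * p) := ⟨mul_ne_zero (NeZero.ne M) hp.ne_zero⟩
  haveI := isFunctionField1_bar (M * p)
  haveI := isFunctionField1_bar M
  haveI := Reduction.isFunctionField1_fullC_basic M (ResidueField A)
  have hgenus := genusFF_le_modL M hpM A hA
    ⟨fun h => absurd h (by omega), fun h => absurd h (by omega)⟩
  obtain ⟨r, hdeg, hr⟩ := (gaussDataX0 M hpM A hA).exists_placeCompat hgenus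
  obtain ⟨s₀, hs₀⟩ := hne
  obtain ⟨hu0, -⟩ := residueAt_spec hT hv
  have hpc : (p : ℤ) ∣ c := dvd_node_coefficient hT hw hp5 hpM hA hr hdeg hnode hD hf hdiv hv hc
    (ι s₀) (hι s₀) (a s₀) hs₀ (heig s₀)
  set u := T.residueAt false f with hu
  -- `div u` is divisible by `p`
  obtain ⟨E, hE⟩ := exists_eq_smul_of_dvd (divisorOf (K := ResidueField A) u) (n := (p : ℤ))
    fun Q => by
      obtain ⟨y, ⟨hy, hyQ⟩, -⟩ := T.existsUnique_pt false Q
      subst hyQ
      rw [divisorOf_apply]
      by_cases hn : T.IsNode y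
      · exact (dvd_sub_left (dvd_mul_of_dvd_left hpc _)).mp ((hc y hy).1 hn)
      · exact (hc y hy).2 hn
  obtain ⟨E', hE'⟩ := exists_lift_divisor hr E
  have hdegE : Divisor.degree E' = 0 := by
    have h0 : (p : ℤ) * Divisor.degree E = 0 := by
      rw [← smul_eq_mul, ← map_zsmul, ← hE, degree_divisorOf]
    rw [← Reduction.degree_mapDomain_eq hdeg, hE']
    exact (mul_eq_zero.mp h0).resolve_left hpZ
  have hE'mem : E' ∈ (Divisor.degZero : AddSubgroup (Divisor Qb (modularFunctionFieldBar M))) :=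
    Divisor.mem_degZero.mpr hdegE
  set x : JZero M := Pic0.mk ⟨E', hE'mem⟩ with hx
  set π := redPic hr hdeg with hπ
  -- the reduced class is an eigenclass
  have hstep : ∀ s, π (heckeOperatorBar M (ι s) x) = a s • π x := by
    intro s
    haveI : NeZero ((ι s : Nat.Primes) : ℕ) := ⟨(ι s).2.ne_zero⟩
    have hℓp : (ι s : ℕ) ≠ p := fun h => hι s (h ▸ dvd_mul_left p M)
    have hℓM : ¬ (ι s : ℕ) ∣ M := fun h => hι s (h.mul_right p)
    obtain ⟨ζ, hL, hk⟩ := exists_root_of_unity hp hA (ι s).2 hℓp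
    obtain ⟨cu, hb, hcu, hb0, hHu⟩ := exists_residue_relation hT hD hf hdiv hv (ι s) (hι s) (a s)
      (heig s) hL hk
    obtain ⟨u', hu', -, hd⟩ := exists_hecke_of_reduction_eq_divisorOf M hpM A hA (ι s).2 hℓM hL hk
      hr hdeg hp5 (X := (p : ℤ) • E') (by rw [map_zsmul, hdegE, smul_zero]) hu0
      (by rw [Finsupp.mapDomain_smul, hE', hE])
    rw [hx, heckeOperatorBar_mk M hE'mem, hπ, redPic_mk_eq_iff]
    refine ⟨hb, hb0, zsmul_divisor_injective hpZ ?_⟩
    have hval : u' = algebraMap (ResidueField A) _ cu * u ^ (a s) * hb ^ p :=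
      Subtype.ext (hu'.trans hHu)
    show (p : ℤ) • divisorOf hb = (p : ℤ) • (Finsupp.mapDomain r (heckeDiv M (ι s) E') -
      a s • Finsupp.mapDomain r E')
    have hau : algebraMap (ResidueField A) (modularFunctionFieldFullC (ResidueField A) M) cu ≠ 0 :=
      (map_ne_zero _).mpr hcu
    rw [smul_sub, ← Finsupp.mapDomain_smul, ← map_zsmul (heckeDiv M (ι s)), hd, hE',
      smul_comm (p : ℤ) (a s), ← hE, hval,
      divisorOf_mul' (mul_ne_zero hau (zpow_ne_zero _ hu0)) (pow_ne_zero _ hb0),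
      divisorOf_mul' hau (zpow_ne_zero _ hu0), divisorOf_algebraMap', divisorOf_zpow',
      divisorOf_pow']
    abel
  -- words
  set L := FreeAlgebra.lift ℤ (fun s => heckeOperatorBar M (ι s)) with hLdef
  set La := FreeAlgebra.lift ℤ a with hLa
  have hword : ∀ w : FreeAlgebra ℤ S,
      (∀ y, π y = 0 → π (L w y) = 0) ∧ π (L w x) = La w • π x := by
    intro w
    induction w using FreeAlgebra.induction with
    | grade0 n =>
      rw [AlgHom.commutes, AlgHom.commutes]
      simp only [Module.algebraMap_end_apply, Algebra.algebraMap_self, RingHom.id_apply]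
      exact ⟨fun y hy => by rw [map_zsmul, hy, smul_zero], map_zsmul π n x⟩
    | grade1 s =>
      rw [hLdef, hLa, FreeAlgebra.lift_ι_apply, FreeAlgebra.lift_ι_apply]
      exact ⟨fun y hy => redPic_heckeOperatorBar_eq_zero M hpM hp5 A hA hr hdeg (ι s)
        (fun h => hι s (h.mul_right p)) (fun h => hι s (h ▸ dvd_mul_left p M)) hy, hstep s⟩
    | mul v w hv' hw' =>
      simp only [map_mul, Module.End.mul_apply]
      refine ⟨fun y hy => hv'.1 _ (hw'.1 y hy), ?_⟩
      have h1 : π (L w x - La w • x) = 0 := by rw [map_sub, map_zsmul, hw'.2, sub_self]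
      have h2 := hv'.1 _ h1
      rw [map_sub, map_sub, map_zsmul, map_zsmul, sub_eq_zero] at h2
      rw [h2, hv'.2, smul_smul, mul_comm]
    | add v w hv' hw' =>
      simp only [map_add, LinearMap.add_apply]
      exact ⟨fun y hy => by rw [hv'.1 y hy, hw'.1 y hy, add_zero],
        by rw [hv'.2, hw'.2, add_zsmul]⟩
  have hta0 : La t • π x = 0 := by
    rw [← (hword t).2, hπ, redPic_eq_reductionModL M hpM hp5 A hA hr hdeg, hLdef, ht]
  have hpx : (p : ℤ) • π x = 0 := by
    rw [← map_zsmul, hx, show (p : ℤ) • Pic0.mk ⟨E', hE'mem⟩ = Pic0.mk ((p : ℤ) • ⟨E', hE'mem⟩)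
      from rfl, hπ, redPic_mk_eq_zero_iff]
    refine ⟨u, hu0, ?_⟩
    rw [hE, ← hE', ← Finsupp.mapDomain_smul]
    rfl
  have hx0 := eq_zero_of_dvd_smul hp hta hpx hta0
  rw [hx, hπ, redPic_mk_eq_zero_iff] at hx0
  obtain ⟨h, hh0, hdh⟩ := hx0
  obtain ⟨c₀, -, huc⟩ := exists_eq_mul_of_divisorOf_eq (K := ResidueField A) hu0
    (pow_ne_zero p hh0) (by rw [divisorOf_pow', hE, hdh]; exact congrArg _ hE'.symm)
  obtain ⟨d, hd'⟩ := IsAlgClosed.exists_pow_nat_eq c₀ hp.pos
  exact ⟨algebraMap (ResidueField A) _ d * h, by rw [mul_pow, ← map_pow, hd', ← huc]⟩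

end Fermat.Agent.LevelP.StepC
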