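import Fermat.Agent.LevelP.StepC.HeckeDivisor
import Fermat.Agent.Modular.ModularPolynomial
import Fermat.Agent.Reduction.ModularData

/-!
# `T_ℓ` carries divisors supported on the poles of `j` to such divisors
-/

set_option autoImplicit false
set_option linter.style.haveILetI false
set_option linter.unusedSectionVars false
set_option synthInstance.maxHeartbeats 400000
set_option maxHeartbeats 1000000

noncomputable section

namespace Fermat.Agent.LevelP.StepC

open AlgebraicCurve ModularCurve Fermat.Agent.Curve Polynomial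
open Fermat.Agent.Reduction (jBar)

local notation "Qb" => AlgebraicClosure ℚ

variable (N ℓ : ℕ) [NeZero N] [NeZero ℓ]

theorem ramificationIndexAlong_pos' {K F F' : Type*} [Field K] [Field F] [Field F'] [Algebra K F]
    [Algebra K F'] (φ : F →ₐ[K] F') (hφ : φ.toRingHom.IsIntegral) (w : Place K F') :
    0 < Place.ramificationIndexAlong φ w := by
  letI := algebraAlong φ
  haveI := isScalarTower_along φ
  haveI := isIntegral_along φ hφ
  exact w.ramificationIndex_pos (F := F)

theorem coe_jBar_eq : ((jBar N : modularFunctionFieldBar N) : LaurentSeries Qb) = coeffEmb Qb jq :=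
  rfl

/-- At a pole of `β j` also `α j` has a pole: `β j` is integral over `ℤ[α j]`. -/
theorem ord_alpha_neg {W : Place Qb (modularFunctionFieldBar (N * ℓ))}
    (h : W.ord (heckeBetaBar Qb N ℓ (jBar N)) < 0) :
    W.ord (heckeAlphaBar Qb N ℓ (jBar N)) < 0 := by
  classical
  by_contra hα
  push Not at hα
  set a : modularFunctionFieldBar (N * ℓ) := heckeAlphaBar Qb N ℓ (jBar N) with ha'
  set b : modularFunctionFieldBar (N * ℓ) := heckeBetaBar Qb N ℓ (jBar N) with hb'
  have haV : a ∈ W.toValuationSubring := (Curve.mem_iff_ord_nonneg W).mpr hα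
  let D := Modular.modularPolynomialData ℓ
  let ev : Polynomial ℤ →+* modularFunctionFieldBar (N * ℓ) :=
    Polynomial.eval₂RingHom (Int.castRingHom _) a
  have hrel : D.Φ.eval₂ ev b = 0 := by
    refine Subtype.val_injective ?_
    show (modularFunctionFieldBar (N * ℓ)).val.toRingHom (D.Φ.eval₂ ev b) = 0
    rw [Polynomial.hom_eval₂]
    have h0 : coeffEmb Qb (D.Φ.eval₂ evalAtJ (jqN ℓ)) = 0 := by rw [D.eval_eq_zero, map_zero]
    rw [Polynomial.hom_eval₂] at h0
    convert h0 using 2
    · refine Polynomial.ringHom_ext (fun n => ?_) ?_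
      · simp [ev, evalAtJ]
      · rw [RingHom.comp_apply, RingHom.comp_apply, evalAtJ_X]
        simp only [ev, Polynomial.coe_eval₂RingHom, Polynomial.eval₂_X]
        exact (coe_heckeAlphaBar N ℓ (jBar N)).trans (coe_jBar_eq N)
    · show (b : LaurentSeries Qb) = _
      rw [coe_heckeBetaBar, coe_jBar_eq, jqN, coeffEmb, ← coeffMap_qExpand]
  have hint : IsIntegral W.toValuationSubring b := by
    refine ⟨D.Φ.map (Polynomial.eval₂RingHom (Int.castRingHom W.toValuationSubring) ⟨a, haV⟩), D.monic.map _, ?_⟩
    rw [Polynomial.eval₂_map]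
    rw [show (algebraMap W.toValuationSubring (modularFunctionFieldBar (N * ℓ))).comp
        (Polynomial.eval₂RingHom (Int.castRingHom W.toValuationSubring) ⟨a, haV⟩) = ev from
      Polynomial.ringHom_ext (fun n => by simp [ev]) (by simp [ev])]
    exact hrel
  obtain ⟨y, hy⟩ := IsIntegrallyClosed.algebraMap_eq_of_integral hint
  have := (Curve.mem_iff_ord_nonneg W).mp (hy ▸ y.2 : b ∈ W.toValuationSubring)
  omega

/-- `T_ℓ` preserves divisors supported on the poles of `j`. -/
theorem heckeDiv_support_pole [IsFunctionField1 Qb (modularFunctionFieldBar N)]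
    {D : Divisor Qb (modularFunctionFieldBar N)} (hD : ∀ P, D P ≠ 0 → P.ord (jBar N) < 0)
    (Q : Place Qb (modularFunctionFieldBar N)) (hQ : heckeDiv N ℓ D Q ≠ 0) :
    Q.ord (jBar N) < 0 := by
  classical
  haveI h := EichlerShimura.heckeInputsAlong_qbar N ℓ
  haveI := h.snd.snd.fst
  by_contra hQj
  refine hQ ?_
  refine EichlerShimura.correspondence_apply_eq_zero fun P hP => ?_
  by_contra hP0
  simp only [EichlerShimura.sources, Finset.mem_image] at hP
  obtain ⟨W, hWQ, hWP⟩ := hP
  have hb : W.ord (heckeBetaBar Qb N ℓ (jBar N)) < 0 := by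
    rw [Place.ord_restrictAlong _ h.snd.fst, hWP]
    refine mul_neg_of_pos_of_neg ?_ (hD P hP0)
    exact_mod_cast ramificationIndexAlong_pos' (heckeBetaBar Qb N ℓ) h.snd.fst W
  have ha := ord_alpha_neg N ℓ hb
  rw [Place.ord_restrictAlong _ h.fst, Place.mem_fiberAlong.mp hWQ] at ha
  exact hQj (neg_of_mul_neg_right ha (Int.natCast_nonneg _))

end Fermat.Agent.LevelP.StepC
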