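import Fermat.Agent.LevelP.StepC.EtaIdentity

/-!
# `Δ` and `Δ(q) / Δ(q ^ p)` under the product of the conjugates
-/

set_option autoImplicit false

noncomputable section

namespace Fermat.Agent.LevelP.StepC

open ModularCurve HahnSeries

variable {R : Type*} [CommRing R]

theorem qExpand_ofPowerSeries (e : ℕ) [NeZero e] (f : PowerSeries R) :
    qExpand R e (ofPowerSeries ℤ R f) =
      ofPowerSeries ℤ R (PowerSeries.expand e (NeZero.ne e) f) := by
  ext k
  by_cases hk : (e : ℤ) ∣ k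
  · obtain ⟨i, rfl⟩ := hk
    rw [qExpand_coeff_mul]
    rcases le_or_gt 0 i with hi | hi
    · lift i to ℕ using hi
      rw [ofPowerSeries_apply_coeff, ← Nat.cast_mul, ofPowerSeries_apply_coeff,
        PowerSeries.coeff_expand_mul]
    · rw [ofPowerSeries_coeff_of_neg _ hi, ofPowerSeries_coeff_of_neg _
        (mul_neg_of_pos_of_neg (by exact_mod_cast Nat.pos_of_ne_zero (NeZero.ne e)) hi)]
  · rw [qExpand_coeff_of_not_dvd _ _ hk]
    rcases le_or_gt 0 k with h | h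
    · lift k to ℕ using h
      rw [ofPowerSeries_apply_coeff, PowerSeries.coeff_expand_of_not_dvd _ _ _
        fun hd => hk (Int.natCast_dvd_natCast.mpr hd)]
    · rw [ofPowerSeries_coeff_of_neg _ h]

theorem twist_ofPowerSeries (c : Rˣ) (f : PowerSeries R) :
    Igusa.twist c (ofPowerSeries ℤ R f) = ofPowerSeries ℤ R (PowerSeries.rescale (c : R) f) := by
  ext k
  rw [Igusa.twist_coeff]
  rcases le_or_gt 0 k with h | h
  · lift k to ℕ using h
    rw [ofPowerSeries_apply_coeff, ofPowerSeries_apply_coeff, PowerSeries.coeff_rescale,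
      zpow_natCast, Units.val_pow_eq_pow_val]
  · rw [ofPowerSeries_coeff_of_neg _ h, ofPowerSeries_coeff_of_neg _ h, mul_zero]

variable [IsDomain R] {ℓ : ℕ} [NeZero ℓ] {ζ : Rˣ} (hℓ : ℓ.Prime) (hζ : IsPrimitiveRoot ζ ℓ)

include hζ in
theorem heckeConj_single_one :
    heckeConj ℓ ζ (HahnSeries.single (1 : ℤ) (1 : R)) =
      HahnSeries.C (∏ b : Fin ℓ, (((ζ ^ (b : ℕ)) : Rˣ) : R)) *
        HahnSeries.single (1 : ℤ) 1 ^ (ℓ + 1) := by
  have htw : ∀ c : Rˣ, Igusa.twist c (HahnSeries.single (1 : ℤ) (1 : R)) =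
      HahnSeries.C (c : R) * HahnSeries.single (1 : ℤ) 1 := fun c => by
    ext k
    rw [Igusa.twist_coeff, HahnSeries.C_apply, HahnSeries.single_mul_single, zero_add, mul_one]
    rcases eq_or_ne k 1 with rfl | hk
    · simp
    · simp [HahnSeries.coeff_single_of_ne hk]
  rw [heckeConj_eq_iff hζ, heckeConjT, map_mul, qExpand_C, map_pow]
  simp only [htw, Finset.prod_mul_distrib, map_prod, Finset.prod_const, Finset.card_univ,
    Fintype.card_fin, qExpand_single, mul_one, HahnSeries.single_pow, one_pow]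
  rw [mul_left_comm, HahnSeries.single_mul_single, mul_one]
  congr 2
  simp
  ring_nf

include hℓ hζ in
theorem heckeConj_ofPowerSeries_eta :
    heckeConj ℓ ζ (ofPowerSeries ℤ R (eulerSeries R)) =
      ofPowerSeries ℤ R (eulerSeries R) ^ (ℓ + 1) := by
  rw [heckeConj_eq_iff hζ, heckeConjT, qExpand_qExpand, qExpand_ofPowerSeries,
    Fin.prod_univ_eq_prod_range (fun b => Igusa.twist (ζ ^ b) (ofPowerSeries ℤ R (eulerSeries R))),
    ← map_pow, qExpand_ofPowerSeries, ← euler_identity hℓ (IsPrimitiveRoot.coe_units_iff.mpr hζ),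
    map_mul, map_prod]
  simp only [twist_ofPowerSeries, Units.val_pow_eq_pow_val]

include hζ in
theorem heckeConj_pow (x : LaurentSeries R) (n : ℕ) :
    heckeConj ℓ ζ (x ^ n) = heckeConj ℓ ζ x ^ n := by
  induction n with
  | zero => rw [pow_zero, pow_zero, heckeConj_one hζ]
  | succ n ih => rw [pow_succ, pow_succ, heckeConj_mul hζ, ih]

include hℓ hζ in
/-- `Δ` is an eigenvector. -/
theorem heckeConj_deltaSeries :
    heckeConj ℓ ζ (Igusa.deltaSeries R) =
      HahnSeries.C (∏ b : Fin ℓ, (((ζ ^ (b : ℕ)) : Rˣ) : R)) *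
        Igusa.deltaSeries R ^ (ℓ + 1) := by
  rw [Igusa.deltaSeries, dedekindEtaUnit, map_pow, map_pow, heckeConj_mul hζ, heckeConj_pow hζ,
    heckeConj_single_one hζ, ← eulerSeries, heckeConj_ofPowerSeries_eta hℓ hζ, mul_pow, ← pow_mul,
    ← pow_mul, mul_comm 24]
  ring

theorem heckeConj_qExpand (p : ℕ) [NeZero p] {ζ' : Rˣ} (hζ' : ζ ^ p = ζ')
    (hp : IsPrimitiveRoot ζ' ℓ) (h : IsPrimitiveRoot ζ ℓ) (x : LaurentSeries R) :
    heckeConj ℓ ζ (qExpand R p x) = qExpand R p (heckeConj ℓ ζ' x) := by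
  rw [heckeConj_eq_iff h, qExpand_qExpand, qExpand_congr (Nat.mul_comm ℓ p), ← qExpand_qExpand,
    qExpand_heckeConj hp, heckeConjT, heckeConjT, map_mul, map_prod]
  congr 1
  · simp only [qExpand_qExpand]
    exact qExpand_congr (by ring) x
  · exact Finset.prod_congr rfl fun b _ => by rw [twist_qExpand, ← hζ', ← pow_mul, ← pow_mul, mul_comm p]

include hℓ hζ in
/-- The residue of `Δ(τ)/Δ(pτ)` is an eigenvector with eigenvalue `ℓ + 1`. -/
theorem exists_heckeConj_unit {p : ℕ} [NeZero p] (hp : ¬ ℓ ∣ p) {w : LaurentSeries R}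
    (hw : w * qExpand R p (Igusa.deltaSeries R) = Igusa.deltaSeries R) :
    ∃ c c' : R, c ≠ 0 ∧ c' ≠ 0 ∧
      HahnSeries.C c' * heckeConj ℓ ζ w = HahnSeries.C c * w ^ (ℓ + 1) := by
  have hζp : IsPrimitiveRoot (ζ ^ p) ℓ :=
    hζ.pow_of_coprime p (Nat.Coprime.symm (hℓ.coprime_iff_not_dvd.mpr hp))
  refine ⟨∏ b : Fin ℓ, (((ζ ^ (b : ℕ)) : Rˣ) : R),
    ∏ b : Fin ℓ, ((((ζ ^ p) ^ (b : ℕ)) : Rˣ) : R),
    Finset.prod_ne_zero_iff.mpr fun b _ => Units.ne_zero _,
    Finset.prod_ne_zero_iff.mpr fun b _ => Units.ne_zero _, ?_⟩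
  have hd : qExpand R p (Igusa.deltaSeries R) ≠ 0 :=
    ((Igusa.hasLead_deltaSeries (R := R)).qExpand p).ne_zero one_ne_zero
  refine mul_right_cancel₀ (pow_ne_zero (ℓ + 1) hd) ?_
  rw [mul_assoc (HahnSeries.C _), mul_assoc (HahnSeries.C _), ← mul_pow, hw,
    ← heckeConj_deltaSeries hℓ hζ]
  conv_rhs => rw [← hw, heckeConj_mul hζ, heckeConj_qExpand p rfl hζp hζ,
    heckeConj_deltaSeries hℓ hζp, map_mul, qExpand_C, map_pow]
  ring

end Fermat.Agent.LevelP.StepC
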