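import Fermat.Agent.Curve.Degree

/-!
# Divisors of functions: arithmetic, kernel, divisibility
-/

set_option autoImplicit false
set_option linter.unusedSectionVars false

noncomputable section

namespace Fermat.Agent.LevelP.StepC

open AlgebraicCurve Fermat.Agent.Curve

variable {K F : Type*} [Field K] [Field F] [Algebra K F] [IsFunctionField1 K F]

theorem divisorOf_mul' {f g : F} (hf : f ≠ 0) (hg : g ≠ 0) :
    divisorOf (K := K) (f * g) = divisorOf f + divisorOf g := by
  ext v; simp [divisorOf_apply, v.ord_mul hf hg]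

theorem divisorOf_zpow' (f : F) (n : ℤ) : divisorOf (K := K) (f ^ n) = n • divisorOf f := by
  ext v; simp [divisorOf_apply, v.ord_zpow]

theorem divisorOf_pow' (f : F) (n : ℕ) : divisorOf (K := K) (f ^ n) = (n : ℤ) • divisorOf f := by
  rw [← zpow_natCast, divisorOf_zpow']

theorem divisorOf_algebraMap' (c : K) : divisorOf (K := K) (algebraMap K F c) = 0 := by
  ext v; simp [divisorOf_apply, Curve.ord_algebraMap]

theorem isPrincipal_iff_exists_divisorOf {D : Divisor K F} :
    D.IsPrincipal ↔ ∃ f : F, f ≠ 0 ∧ divisorOf f = D :=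
  ⟨fun ⟨f, hf, h⟩ => ⟨f, hf, Finsupp.ext fun v => (h v).symm⟩,
    fun ⟨f, hf, h⟩ => ⟨f, hf, fun v => by rw [← h]; rfl⟩⟩

theorem exists_eq_mul_of_divisorOf_eq [IsAlgClosed K] {f g : F} (hf : f ≠ 0) (hg : g ≠ 0)
    (h : divisorOf (K := K) f = divisorOf g) :
    ∃ c : K, c ≠ 0 ∧ f = algebraMap K F c * g := by
  have halg : IsAlgebraic K (f / g) := isAlgebraic_of_forall_ord_nonneg fun v => by
    rw [Curve.ord_div v hf hg, ← divisorOf_apply, ← divisorOf_apply, h, sub_self]
  have hint : IsIntegral K (f / g) := halg.isIntegral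
  have hdeg := IsAlgClosed.degree_eq_one_of_irreducible K (minpoly.irreducible hint)
  obtain ⟨c, hc⟩ := minpoly.degree_eq_one_iff.mp hdeg
  refine ⟨c, fun h0 => ?_, by rw [hc, div_mul_cancel₀ f hg]⟩
  rw [h0, map_zero] at hc
  exact div_ne_zero hf hg hc.symm

theorem exists_eq_smul_of_dvd (D : Divisor K F) {n : ℤ} (h : ∀ v, n ∣ D v) :
    ∃ E : Divisor K F, D = n • E := by
  refine ⟨D.mapRange (fun m => m / n) (Int.zero_ediv n), Finsupp.ext fun v => ?_⟩
  simp [Int.mul_ediv_cancel' (h v)]

theorem zsmul_divisor_injective {n : ℤ} (hn : n ≠ 0) :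
    Function.Injective fun D : Divisor K F => n • D := fun D E h => by
  ext v
  simpa [hn] using DFunLike.congr_fun h v

end Fermat.Agent.LevelP.StepC
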