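import Fermat.Agent.LevelP.StepC.HeckeSeries
import Fermat.Agent.Modular.JFun
import Mathlib.RingTheory.PowerSeries.Expand

/-!
# The product of the conjugates of `Δ` is a constant times `Δ ^ (ℓ + 1)`

Elementary: `∏_b (1 - ζ ^ (b m) X ^ m)` is `1 - X ^ (m ℓ)` for `ℓ ∤ m` and `(1 - X ^ m) ^ ℓ`
otherwise, so the finite Euler products satisfy the identity up to arbitrarily high order.
-/

set_option autoImplicit false

noncomputable section

namespace Fermat.Agent.LevelP.StepC

open ModularCurve PowerSeries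

variable (R : Type*) [CommRing R]

/-- A finite Euler product. -/
def eulerTrunc (n : ℕ) : PowerSeries R :=
  ∏ m ∈ Finset.range n, (1 - PowerSeries.X ^ (m + 1))

/-- The Euler product over `R`. -/
def eulerSeries : PowerSeries R := PowerSeries.map (Int.castRingHom R) etaProd

variable {R}

/-- Congruence modulo `X ^ n`. -/
abbrev modXPow (n : ℕ) : PowerSeries R →+* PowerSeries R ⧸ Ideal.span {(PowerSeries.X : PowerSeries R) ^ n} :=
  Ideal.Quotient.mk _

theorem modXPow_eq_iff {n : ℕ} {f g : PowerSeries R} :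
    modXPow n f = modXPow n g ↔ (PowerSeries.X : PowerSeries R) ^ n ∣ f - g := by
  rw [Ideal.Quotient.eq, Ideal.mem_span_singleton]

theorem modXPow_eulerSeries {n N : ℕ} (h : n ≤ N) :
    modXPow (R := R) n (eulerSeries R) = modXPow n (eulerTrunc R N) := by
  rw [modXPow_eq_iff, PowerSeries.X_pow_dvd_iff]
  intro m hm
  rw [map_sub, eulerSeries, PowerSeries.coeff_map, Modular.coeff_etaProd_eq m (hm.le.trans h),
    sub_eq_zero, ← Polynomial.coeff_coe, ← Polynomial.coeToPowerSeries.ringHom_apply,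
    ← PowerSeries.coeff_map, map_prod, map_prod, eulerTrunc]
  refine congrArg _ (Finset.prod_congr rfl fun i _ => ?_)
  simp

theorem modXPow_rescale {n : ℕ} {f g : PowerSeries R} (h : modXPow n f = modXPow n g) (c : R) :
    modXPow n (rescale c f) = modXPow n (rescale c g) := by
  rw [modXPow_eq_iff] at h ⊢
  obtain ⟨d, hd⟩ := h
  refine ⟨PowerSeries.C (c ^ n) * rescale c d, ?_⟩
  rw [← map_sub, hd, map_mul, map_pow, rescale_X, mul_pow, map_pow]
  ring

theorem modXPow_expand {n : ℕ} {f g : PowerSeries R} (h : modXPow n f = modXPow n g) (e : ℕ)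
    (he : e ≠ 0) : modXPow n (expand e he f) = modXPow n (expand e he g) := by
  rw [modXPow_eq_iff] at h ⊢
  obtain ⟨d, hd⟩ := h
  rw [← map_sub, hd, map_mul, map_pow, expand_X, ← pow_mul]
  exact (pow_dvd_pow _ (Nat.le_mul_of_pos_left n (Nat.pos_of_ne_zero he))).mul_right _

variable [IsDomain R] {ℓ : ℕ} {ζ : R} (hℓ : ℓ.Prime) (hζ : IsPrimitiveRoot ζ ℓ)

include hℓ hζ in
/-- The conjugates of `1 - X ^ m`. -/
theorem prod_rescale_one_sub (m : ℕ) :
    ∏ b ∈ Finset.range ℓ, rescale (ζ ^ b) (1 - (PowerSeries.X : PowerSeries R) ^ m) =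
      if ℓ ∣ m then (1 - PowerSeries.X ^ m) ^ ℓ else 1 - PowerSeries.X ^ (m * ℓ) := by
  have hterm : ∀ b : ℕ, rescale (ζ ^ b) (1 - (PowerSeries.X : PowerSeries R) ^ m) =
      1 - PowerSeries.C ((ζ ^ m) ^ b) * PowerSeries.X ^ m := fun b => by
    rw [map_sub, map_one, map_pow, rescale_X, mul_pow, ← map_pow, ← pow_mul, ← pow_mul, mul_comm b m]
  simp only [hterm]
  split_ifs with h
  · obtain ⟨k, rfl⟩ := h
    rw [show ζ ^ (ℓ * k) = 1 by rw [pow_mul, hζ.pow_eq_one, one_pow]]
    simp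
  · have hm : IsPrimitiveRoot (ζ ^ m) ℓ :=
      hζ.pow_of_coprime m (Nat.Coprime.symm (hℓ.coprime_iff_not_dvd.mpr h))
    have hC : IsPrimitiveRoot (PowerSeries.C (ζ ^ m) : PowerSeries R) ℓ :=
      hm.map_of_injective (f := (PowerSeries.C : R →+* PowerSeries R))
        (Function.LeftInverse.injective (g := PowerSeries.constantCoeff) fun a => by simp)
    classical
    have := hC.pow_sub_pow_eq_prod_sub_mul 1 ((PowerSeries.X : PowerSeries R) ^ m) hℓ.pos
    rw [one_pow, ← pow_mul] at this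
    rw [this, Polynomial.nthRootsFinset, hC.nthRoots_eq (one_pow ℓ)]
    rw [show ((Multiset.range ℓ).map fun x => PowerSeries.C (ζ ^ m) ^ x * 1).toFinset =
      (Finset.range ℓ).image fun x => PowerSeries.C (ζ ^ m) ^ x from Finset.ext fun x => by simp,
      Finset.prod_image fun i hi j hj h => hC.pow_inj (Finset.mem_range.mp hi)
        (Finset.mem_range.mp hj) h]
    simp [map_pow]

include hℓ hζ in
/-- The identity for the finite products. -/
theorem trunc_identity (M : ℕ) :
    expand (ℓ * ℓ) (mul_ne_zero hℓ.ne_zero hℓ.ne_zero) (eulerTrunc R M) *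
        ∏ b ∈ Finset.range ℓ, rescale (ζ ^ b) (eulerTrunc R (ℓ * M)) =
      expand ℓ hℓ.ne_zero (eulerTrunc R (ℓ * M)) * expand ℓ hℓ.ne_zero (eulerTrunc R M) ^ ℓ := by
  induction M with
  | zero => simp [eulerTrunc]
  | succ M ih =>
    have hsplit : eulerTrunc R (ℓ * (M + 1)) = eulerTrunc R (ℓ * M) *
        ∏ i ∈ Finset.range ℓ, (1 - PowerSeries.X ^ (ℓ * M + i + 1)) := by
      rw [eulerTrunc, eulerTrunc, mul_add, mul_one, Finset.prod_range_add]
    have hsucc : eulerTrunc R (M + 1) = eulerTrunc R M * (1 - PowerSeries.X ^ (M + 1)) := by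
      rw [eulerTrunc, eulerTrunc, Finset.prod_range_succ]
    have hblock : (1 - (PowerSeries.X : PowerSeries R) ^ (ℓ * ℓ * (M + 1))) *
        ∏ i ∈ Finset.range ℓ, ∏ b ∈ Finset.range ℓ,
          rescale (ζ ^ b) (1 - (PowerSeries.X : PowerSeries R) ^ (ℓ * M + i + 1)) =
        (∏ i ∈ Finset.range ℓ, (1 - (PowerSeries.X : PowerSeries R) ^ (ℓ * (ℓ * M + i + 1)))) *
          (1 - PowerSeries.X ^ (ℓ * (M + 1))) ^ ℓ := by
      obtain ⟨l, hl⟩ : ∃ l, ℓ = l + 1 := ⟨ℓ - 1, (Nat.sub_add_cancel hℓ.one_le).symm⟩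
      have hnd : ∀ i < l, ¬ ℓ ∣ ℓ * M + i + 1 := by
        intro i hi hd
        have h2 : ℓ ∣ i + 1 := (Nat.dvd_add_right (dvd_mul_right ℓ M)).mp (by rwa [← add_assoc])
        have := Nat.le_of_dvd i.succ_pos h2
        omega
      simp only [prod_rescale_one_sub hℓ hζ]
      have hlast : ℓ * M + l + 1 = ℓ * (M + 1) := by rw [mul_add, mul_one]; omega
      rw [show Finset.range ℓ = Finset.range (l + 1) by rw [← hl], Finset.prod_range_succ,
        Finset.prod_range_succ, hlast, if_pos (dvd_mul_right ℓ (M + 1)),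
        Finset.prod_congr rfl fun i hi => if_neg (hnd i (Finset.mem_range.mp hi))]
      simp only [mul_comm _ ℓ, ← mul_assoc]
      ring
    rw [hsucc, hsplit, map_mul, map_sub, map_one, map_pow, expand_X, ← pow_mul, map_mul, map_mul,
      mul_pow, map_sub, map_one, map_pow, expand_X, ← pow_mul]
    simp only [map_mul, map_prod, Finset.prod_mul_distrib, map_sub, map_one, map_pow, expand_X,
      ← pow_mul]
    rw [Finset.prod_comm] at hblock
    simp only [map_sub, map_one, map_pow] at hblock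
    linear_combination (1 - (PowerSeries.X : PowerSeries R) ^ (ℓ * ℓ * (M + 1))) *
      (∏ x ∈ Finset.range ℓ, ∏ i ∈ Finset.range ℓ,
        (1 - rescale (ζ ^ x) PowerSeries.X ^ (ℓ * M + i + 1))) * ih +
      (expand ℓ hℓ.ne_zero (eulerTrunc R (ℓ * M)) * expand ℓ hℓ.ne_zero (eulerTrunc R M) ^ ℓ) *
        hblock

include hℓ hζ in
/-- The identity for the Euler product. -/
theorem euler_identity :
    expand (ℓ * ℓ) (mul_ne_zero hℓ.ne_zero hℓ.ne_zero) (eulerSeries R) *
        ∏ b ∈ Finset.range ℓ, rescale (ζ ^ b) (eulerSeries R) =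
      expand ℓ hℓ.ne_zero (eulerSeries R ^ (ℓ + 1)) := by
  ext k
  have h : modXPow (k + 1) _ = modXPow (k + 1) _ :=
    congrArg (modXPow (R := R) (k + 1)) (trunc_identity hℓ hζ (k + 1))
  have h1 := modXPow_eulerSeries (R := R) (le_refl (k + 1))
  have h2 := modXPow_eulerSeries (R := R) (Nat.le_mul_of_pos_left (k + 1) hℓ.pos)
  rw [map_mul, map_mul, map_prod, map_pow, ← modXPow_expand h1 _ _, ← modXPow_expand h1 _ _,
    ← modXPow_expand h2 _ _, Finset.prod_congr rfl fun b _ => (modXPow_rescale h2 (ζ ^ b)).symm,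
    ← map_prod, ← map_mul, ← pow_succ', ← map_pow, ← map_pow (expand ℓ hℓ.ne_zero),
    modXPow_eq_iff, PowerSeries.X_pow_dvd_iff] at h
  exact sub_eq_zero.mp ((map_sub _ _ _).symm.trans (h k k.lt_succ_self))

end Fermat.Agent.LevelP.StepC
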