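import Fermat.Agent.LevelP.StepC.DeltaIdentity
import Fermat.Agent.Reduction.NormCongruence
import Fermat.Agent.Reduction.HeckeDegree
import Fermat.Agent.BadPrime.GaussValuation
import Fermat.Agent.EC.Red.ResidueQbar
import Fermat.Agent.EichlerShimura.CorrespondenceComm

/-!
# The Hecke correspondence commutes with Gauss reduction
-/

set_option autoImplicit false
set_option synthInstance.maxHeartbeats 400000

noncomputable section

namespace Fermat.Agent.LevelP.StepC

open AlgebraicCurve ModularCurve IsLocalRing Fermat.Agent.BadPrime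

local notation "Qb" => AlgebraicClosure ℚ

variable {A : ValuationSubring Qb} {p : ℕ} {ℓ : ℕ}

theorem exists_root_of_unity (hp : p.Prime) (hA : A.LiesOverPrime p) (hℓ : ℓ.Prime)
    (hℓp : ℓ ≠ p) :
    ∃ ζ : Aˣ, IsPrimitiveRoot (Units.map A.subtype.toMonoidHom ζ) ℓ ∧
      IsPrimitiveRoot (Units.map (residue A).toMonoidHom ζ) ℓ := by
  have : Fact ℓ.Prime := ⟨hℓ⟩
  obtain ⟨z, hz⟩ := IsAlgClosed.exists_root (Polynomial.cyclotomic ℓ Qb)
    (Polynomial.degree_cyclotomic_pos ℓ Qb hℓ.pos).ne'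
  rw [Polynomial.isRoot_cyclotomic_iff] at hz
  have hzA : z ∈ A := by
    rcases A.mem_or_inv_mem z with h | h
    · exact h
    · have h' : z = z⁻¹ ^ (ℓ - 1) := by
        rw [inv_pow]
        refine eq_inv_of_mul_eq_one_left ?_
        rw [← pow_succ', Nat.sub_add_cancel hℓ.one_le, hz.pow_eq_one]
      rw [h']
      exact pow_mem h _
  set zA : A := ⟨z, hzA⟩ with hzA'
  have hzp : zA ^ ℓ = 1 := Subtype.ext hz.pow_eq_one
  have hzprim : IsPrimitiveRoot zA ℓ :=
    IsPrimitiveRoot.of_map_of_injective (f := A.subtype) hz Subtype.coe_injective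
  refine ⟨(IsUnit.of_pow_eq_one hzp hℓ.ne_zero).unit, ?_, ?_⟩ <;>
    refine IsPrimitiveRoot.coe_units_iff.mp ?_
  · simpa using hzprim
  · have hne : residue A zA ≠ 1 := by
      intro h1
      have h2 : (Polynomial.cyclotomic ℓ A).IsRoot zA := hzprim.isRoot_cyclotomic hℓ.pos
      have h3 := h2.map (f := residue A)
      rw [Polynomial.map_cyclotomic, h1, Polynomial.IsRoot.def,
        Polynomial.eval_one_cyclotomic_prime] at h3
      exact EC.natCast_residue_ne_zero A hp hA
        (fun h => hℓp ((Nat.prime_dvd_prime_iff_eq hp hℓ).mp h).symm) h3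
    have h : IsPrimitiveRoot (residue A zA) ℓ := by
      rw [IsPrimitiveRoot.iff_orderOf]
      exact orderOf_eq_prime (by rw [← map_pow, hzp, map_one]) hne
    simpa using h

/-- The product of the conjugates commutes with Gauss reduction. -/
theorem hasGaussRed_heckeConj [NeZero ℓ] {ζ : Aˣ}
    (hL : IsPrimitiveRoot (Units.map A.subtype.toMonoidHom ζ) ℓ)
    (hk : IsPrimitiveRoot (Units.map (residue A).toMonoidHom ζ) ℓ)
    {f : LaurentSeries Qb} {g : LaurentSeries (ResidueField A)}
    (h : HasGaussRed (residue A) f g) :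
    HasGaussRed (residue A) (heckeConj ℓ (Units.map A.subtype.toMonoidHom ζ) f)
      (heckeConj ℓ (Units.map (residue A).toMonoidHom ζ) g) := by
  have hζ : IsPrimitiveRoot ζ ℓ :=
    IsPrimitiveRoot.of_map_of_injective (f := Units.map A.subtype.toMonoidHom) hL
      (Units.map_injective Subtype.coe_injective)
  obtain ⟨a, b, hb, h1, h2⟩ := h
  refine ⟨heckeConj ℓ ζ a, heckeConj ℓ ζ b, ?_, ?_, ?_⟩
  · rw [coeffMap_heckeConj hζ (residue A) hk]
    exact heckeConj_ne_zero hk hb
  · rw [coeffMap_heckeConj hζ A.subtype hL, coeffMap_heckeConj hζ A.subtype hL,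
      ← heckeConj_mul hL, h1]
  · rw [coeffMap_heckeConj hζ (residue A) hk, coeffMap_heckeConj hζ (residue A) hk,
      ← heckeConj_mul hk, h2]

/-- The norm along `α` of `β x` is the product of the conjugates. -/
theorem coe_normAlong_heckeBeta {N : ℕ} [NeZero N] [NeZero ℓ] (hℓ : ℓ.Prime) (hℓN : ¬ ℓ ∣ N)
    (ι : Qb →+* ℂ) {ζ : Qbˣ} (hζ : IsPrimitiveRoot ζ ℓ) (x : modularFunctionFieldBar N) :
    ((EichlerShimura.normAlong (heckeAlphaBar Qb N ℓ) (heckeBetaBar Qb N ℓ x) :
      modularFunctionFieldBar N) : LaurentSeries Qb) = heckeConj ℓ ζ (x : LaurentSeries Qb) := by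
  symm
  rw [heckeConj_eq_iff hζ]
  exact Reduction.qExpand_norm_heckeBetaBar hℓ hℓN ι hζ
    (Reduction.finrankAlong_heckeAlphaBar_of_embedding ι N ℓ hℓ hℓN) x

end Fermat.Agent.LevelP.StepC
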