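import Fermat.Agent.EichlerShimura.Commute
import Fermat.Agent.Curve.Degree
import Fermat.Agent.LevelP.StepC.HeckeResidue
import Fermat.Prelude.Def_ModularCurve_HeckeModule

/-!
# The Hecke correspondence on divisors of `X₀(N)` over `ℚ̄`
-/

set_option autoImplicit false
set_option linter.unusedSectionVars false
set_option linter.style.haveILetI false
set_option synthInstance.maxHeartbeats 400000

noncomputable section

namespace Fermat.Agent.LevelP.StepC

open AlgebraicCurve ModularCurve Fermat.Agent.Curve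

local notation "Qb" => AlgebraicClosure ℚ

variable (N ℓ : ℕ) [NeZero N] [NeZero ℓ]

theorem isFunctionField1_bar : IsFunctionField1 Qb (modularFunctionFieldBar N) :=
  EichlerShimura.isFunctionField1_level (complexEmbedding : Qb →+* ℂ) N

/-- `T_ℓ` on divisors. -/
def heckeDiv :
    Divisor Qb (modularFunctionFieldBar N) →+ Divisor Qb (modularFunctionFieldBar N) :=
  haveI h := EichlerShimura.heckeInputsAlong_qbar N ℓ
  haveI := h.snd.snd.fst
  heckeDivBar h.fst h.snd.fst

theorem heckeDiv_nonneg (P : Place Qb (modularFunctionFieldBar N)) :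
    0 ≤ heckeDiv N ℓ (Finsupp.single P 1) :=
  haveI h := EichlerShimura.heckeInputsAlong_qbar N ℓ
  haveI := h.snd.snd.fst
  Reduction.correspondence_single_nonneg _ _ h.snd.fst h.fst P

theorem degree_heckeDiv (D : Divisor Qb (modularFunctionFieldBar N)) :
    Divisor.degree (heckeDiv N ℓ D) =
      (finrankAlong Qb (heckeBetaBar Qb N ℓ) : ℤ) * Divisor.degree D :=
  haveI h := EichlerShimura.heckeInputsAlong_qbar N ℓ
  haveI := h.snd.snd.fst
  Divisor.degree_correspondence (heckeBetaBar Qb N ℓ) (heckeAlphaBar Qb N ℓ) h.snd.fst h.fst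
    h.snd.snd.snd.snd.1 D

theorem heckeDiv_mem_degZero {D : Divisor Qb (modularFunctionFieldBar N)}
    (hD : D ∈ (Divisor.degZero : AddSubgroup (Divisor Qb (modularFunctionFieldBar N)))) :
    heckeDiv N ℓ D ∈ (Divisor.degZero : AddSubgroup (Divisor Qb (modularFunctionFieldBar N))) := by
  rw [Divisor.mem_degZero] at hD ⊢
  rw [degree_heckeDiv, hD, mul_zero]

theorem heckeOperatorBar_mk {ℓ : Nat.Primes} {D : Divisor Qb (modularFunctionFieldBar N)}
    (hD : D ∈ (Divisor.degZero : AddSubgroup (Divisor Qb (modularFunctionFieldBar N)))) :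
    haveI : NeZero (ℓ : ℕ) := ⟨ℓ.2.ne_zero⟩
    heckeOperatorBar N ℓ (Pic0.mk ⟨D, hD⟩) =
      Pic0.mk ⟨heckeDiv N ℓ D, heckeDiv_mem_degZero N ℓ hD⟩ := by
  haveI : NeZero (ℓ : ℕ) := ⟨ℓ.2.ne_zero⟩
  haveI h := EichlerShimura.heckeInputsAlong_qbar N ℓ
  haveI := h.snd.snd.fst
  rw [heckeOperatorBar_apply,
    heckeOperatorAlong_eq h.fst h.snd.fst h.snd.snd.snd.snd.1 h.snd.snd.snd.fst
      h.snd.snd.snd.snd.2]
  rfl

variable [IsFunctionField1 Qb (modularFunctionFieldBar N)]

theorem heckeDiv_divisorOf {f : modularFunctionFieldBar N} (hf : f ≠ 0) :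
    heckeDiv N ℓ (divisorOf f) =
      divisorOf (EichlerShimura.normAlong (heckeAlphaBar Qb N ℓ) (heckeBetaBar Qb N ℓ f)) := by
  haveI h := EichlerShimura.heckeInputsAlong_qbar N ℓ
  haveI := h.snd.snd.fst
  ext P
  rw [divisorOf_apply]
  exact Reduction.heckeDivBar_apply_eq_ord_norm h.fst h.snd.fst h.snd.snd.snd.fst
    h.snd.snd.snd.snd.2 hf (fun _ => rfl) P

theorem normAlong_heckeBeta_ne_zero {f : modularFunctionFieldBar N} (hf : f ≠ 0) :
    EichlerShimura.normAlong (heckeAlphaBar Qb N ℓ) (heckeBetaBar Qb N ℓ f) ≠ 0 :=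
  haveI h := EichlerShimura.heckeInputsAlong_qbar N ℓ
  EichlerShimura.normAlong_ne_zero h.snd.snd.snd.fst ((map_ne_zero _).mpr hf)

end Fermat.Agent.LevelP.StepC
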