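import Fermat.Agent.Igusa.LaurentLead
import Fermat.Prelude.Def_ModularCurve_LaurentCoeff
import Fermat.Prelude.Thm_ModularCurve_coeffMap_qExpand
import Mathlib.RingTheory.RootsOfUnity.PrimitiveRoots
import Mathlib.RingTheory.Polynomial.Cyclotomic.Basic

/-!
# The product of the `ℓ + 1` conjugates of a `q`-series

`heckeConj ζ x` is the series `z` with `z(t ^ ℓ) = x(t ^ (ℓ ^ 2)) * ∏_b x(ζ ^ b t)`, for a
primitive `ℓ`-th root of unity `ζ`. It is multiplicative and natural in the coefficient ring.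
-/

set_option autoImplicit false

noncomputable section

namespace Fermat.Agent.LevelP.StepC

open ModularCurve HahnSeries

variable {R S : Type*} [CommRing R] [CommRing S]

theorem twist_twist (c d : Rˣ) (x : LaurentSeries R) :
    Igusa.twist c (Igusa.twist d x) = Igusa.twist (c * d) x := by
  ext k
  simp only [Igusa.twist_coeff, mul_zpow, Units.val_mul]
  ring

theorem twist_qExpand (c : Rˣ) (n : ℕ) [NeZero n] (x : LaurentSeries R) :
    Igusa.twist c (qExpand R n x) = qExpand R n (Igusa.twist (c ^ n) x) := by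
  ext k
  rw [Igusa.twist_coeff]
  by_cases hk : (n : ℤ) ∣ k
  · obtain ⟨i, rfl⟩ := hk
    rw [qExpand_coeff_mul, qExpand_coeff_mul, Igusa.twist_coeff, zpow_mul, zpow_natCast]
  · rw [qExpand_coeff_of_not_dvd _ _ hk, qExpand_coeff_of_not_dvd _ _ hk, mul_zero]

theorem twist_injective (c : Rˣ) : Function.Injective (Igusa.twist c) := fun x y h => by
  have := congrArg (Igusa.twist c⁻¹) h
  simpa [twist_twist, Igusa.twist_one] using this

variable (ℓ : ℕ) [NeZero ℓ] (ζ : Rˣ)

/-- The product of the conjugates, in `t = q ^ (1 / ℓ)`. -/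
def heckeConjT (x : LaurentSeries R) : LaurentSeries R :=
  qExpand R ℓ (qExpand R ℓ x) * ∏ b : Fin ℓ, Igusa.twist (ζ ^ (b : ℕ)) x

theorem heckeConjT_mul (x y : LaurentSeries R) :
    heckeConjT ℓ ζ (x * y) = heckeConjT ℓ ζ x * heckeConjT ℓ ζ y := by
  simp only [heckeConjT, map_mul, Finset.prod_mul_distrib]
  ring

theorem heckeConjT_C (a : R) : heckeConjT ℓ ζ (HahnSeries.C a) = HahnSeries.C (a ^ (ℓ + 1)) := by
  have h : ∀ c : Rˣ, Igusa.twist c (HahnSeries.C a) = HahnSeries.C a := fun c => by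
    ext k
    rw [Igusa.twist_coeff, HahnSeries.C_apply]
    rcases eq_or_ne k 0 with rfl | hk
    · simp
    · simp [HahnSeries.coeff_single_of_ne hk]
  simp only [heckeConjT, qExpand_C, h, Finset.prod_const, Finset.card_univ, Fintype.card_fin,
    ← map_pow, ← map_mul, ← pow_succ']

theorem coeffMap_heckeConjT (f : R →+* S) (x : LaurentSeries R) :
    coeffMap f (heckeConjT ℓ ζ x) = heckeConjT ℓ (Units.map f.toMonoidHom ζ) (coeffMap f x) := by
  simp only [heckeConjT, map_mul, map_prod, coeffMap_qExpand, Igusa.coeffMap_twist, map_pow]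

variable {ℓ ζ}

theorem twist_heckeConjT (hζ : ζ ^ ℓ = 1) (x : LaurentSeries R) :
    Igusa.twist ζ (heckeConjT ℓ ζ x) = heckeConjT ℓ ζ x := by
  rw [heckeConjT, map_mul, map_prod]
  congr 1
  · rw [twist_qExpand, hζ, Igusa.twist_one]
  · refine Fintype.prod_equiv (Equiv.addRight (1 : Fin ℓ)) _ _ fun b => ?_
    rw [twist_twist, ← pow_succ', Equiv.coe_addRight, Fin.val_add, Fin.val_one',
      Nat.add_mod_mod, ← pow_eq_pow_mod _ hζ]

variable (ℓ) in
/-- The coefficients of index divisible by `ℓ`. -/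
def contract (x : LaurentSeries R) : LaurentSeries R :=
  HahnSeries.ofSuppBddBelow (fun n => x.coeff ((ℓ : ℤ) * n))
    (HahnSeries.forallLTEqZero_supp_BddBelow _ (min x.order 0) fun m hm => by
      refine HahnSeries.coeff_eq_zero_of_lt_order ?_
      have hℓ : (1 : ℤ) ≤ (ℓ : ℤ) := by exact_mod_cast NeZero.one_le
      have h1 : m < 0 := lt_of_lt_of_le hm (min_le_right _ _)
      have h2 : m < x.order := lt_of_lt_of_le hm (min_le_left _ _)
      nlinarith [mul_nonneg (sub_nonneg.mpr hℓ) (neg_nonneg.mpr h1.le)])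

@[simp]
theorem contract_coeff (x : LaurentSeries R) (n : ℤ) :
    (contract ℓ x).coeff n = x.coeff ((ℓ : ℤ) * n) := rfl

variable [IsDomain R] (hζ : IsPrimitiveRoot ζ ℓ)

include hζ in
theorem qExpand_contract {x : LaurentSeries R} (hx : Igusa.twist ζ x = x) :
    qExpand R ℓ (contract ℓ x) = x := by
  ext k
  by_cases hk : (ℓ : ℤ) ∣ k
  · obtain ⟨i, rfl⟩ := hk
    rw [qExpand_coeff_mul, contract_coeff]
  · rw [qExpand_coeff_of_not_dvd _ _ hk]
    have h := congrArg (fun z : LaurentSeries R => z.coeff k) hx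
    simp only [Igusa.twist_coeff] at h
    have h1 : (((ζ ^ k : Rˣ) : R) - 1) * x.coeff k = 0 := by linear_combination h
    refine ((mul_eq_zero.mp h1).resolve_left fun h0 => hk ?_).symm
    exact (hζ.zpow_eq_one_iff_dvd k).mp (Units.ext (by rw [Units.val_one]; exact sub_eq_zero.mp h0))

variable (ℓ) in
/-- The product of the conjugates as a series in `q`. -/
def heckeConj (ζ : Rˣ) (x : LaurentSeries R) : LaurentSeries R :=
  contract ℓ (heckeConjT ℓ ζ x)

include hζ in
theorem qExpand_heckeConj (x : LaurentSeries R) :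
    qExpand R ℓ (heckeConj ℓ ζ x) = heckeConjT ℓ ζ x :=
  qExpand_contract hζ (twist_heckeConjT hζ.pow_eq_one x)

include hζ in
theorem heckeConj_eq_iff {x z : LaurentSeries R} :
    heckeConj ℓ ζ x = z ↔ qExpand R ℓ z = heckeConjT ℓ ζ x := by
  rw [← qExpand_heckeConj hζ x]
  exact ⟨fun h => by rw [h], fun h => (qExpand_injective ℓ h).symm⟩

include hζ in
theorem heckeConj_mul (x y : LaurentSeries R) :
    heckeConj ℓ ζ (x * y) = heckeConj ℓ ζ x * heckeConj ℓ ζ y := by
  rw [heckeConj_eq_iff hζ, map_mul, qExpand_heckeConj hζ, qExpand_heckeConj hζ, heckeConjT_mul]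

include hζ in
theorem heckeConj_C (a : R) :
    heckeConj ℓ ζ (HahnSeries.C a) = HahnSeries.C (a ^ (ℓ + 1)) := by
  rw [heckeConj_eq_iff hζ, qExpand_C, heckeConjT_C]

include hζ in
theorem heckeConj_one : heckeConj ℓ ζ (1 : LaurentSeries R) = 1 := by
  simpa using heckeConj_C hζ (1 : R)

include hζ in
theorem heckeConj_ne_zero {x : LaurentSeries R} (hx : x ≠ 0) : heckeConj ℓ ζ x ≠ 0 := by
  intro h
  have h1 := qExpand_heckeConj hζ x
  rw [h, map_zero] at h1
  refine mul_ne_zero ?_ (Finset.prod_ne_zero_iff.mpr fun b _ => ?_) h1.symm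
  · exact (map_ne_zero_iff _ (qExpand_injective ℓ)).mpr
      ((map_ne_zero_iff _ (qExpand_injective ℓ)).mpr hx)
  · exact (map_ne_zero_iff _ (twist_injective _)).mpr hx

include hζ in
theorem coeffMap_heckeConj [IsDomain S] (f : R →+* S)
    (hζ' : IsPrimitiveRoot (Units.map f.toMonoidHom ζ) ℓ) (x : LaurentSeries R) :
    coeffMap f (heckeConj ℓ ζ x) = heckeConj ℓ (Units.map f.toMonoidHom ζ) (coeffMap f x) := by
  symm
  rw [heckeConj_eq_iff hζ', ← coeffMap_qExpand, qExpand_heckeConj hζ, coeffMap_heckeConjT]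

end Fermat.Agent.LevelP.StepC
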