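import Fermat.Agent.LevelP.StepC.ReducedHecke
import Fermat.Agent.LevelP.StepC.DivisorHelpers

/-!
# The reduction `J₀(M)(ℚ̄) → Pic⁰` of the special fibre and the Hecke operators
-/

set_option autoImplicit false
set_option linter.unusedSectionVars false
set_option linter.style.haveILetI false
set_option synthInstance.maxHeartbeats 400000

noncomputable section

namespace Fermat.Agent.LevelP.StepC

open AlgebraicCurve ModularCurve IsLocalRing Fermat.Agent.Curve Fermat.Agent.Reduction

section Abstract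

variable {K : Type*} [Field K] {k : Type*} [Field k] {A : ValuationSubring K}
variable {F : Type*} [Field F] [Algebra K F] {Fb : Type*} [Field Fb] [Algebra k Fb]
variable {π : A →+* k}
variable [IsAlgClosed K] [IsAlgClosed k] [IsFunctionField1 K F] [IsFunctionField1 k Fb]
variable {G : GaussData π F Fb} {r : Place K F → Place k Fb} (hr : G.PlaceCompat r)
  (hdeg : ∀ P, (r P).deg = P.deg)

/-- The reduction of degree zero divisors. -/
def redDegZero : Divisor.degZero (K := K) (F := F) →+ Divisor.degZero (K := k) (F := Fb) :=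
  ((Finsupp.mapDomain.addMonoidHom r).domRestrict _).codRestrict _ fun D => by
    rw [Divisor.mem_degZero]
    exact (Reduction.degree_mapDomain_eq hdeg (D : Divisor K F)).trans (Divisor.mem_degZero.mp D.2)

/-- The reduction of divisor classes. -/
def redPic : Pic0 K F →+ Pic0 k Fb :=
  QuotientAddGroup.map _ _ (redDegZero hdeg) fun D hD => by
    rw [AddSubgroup.mem_addSubgroupOf] at hD
    obtain ⟨f, hf, hDf⟩ := isPrincipal_iff_exists_divisorOf.mp hD
    obtain ⟨f', -, hff', g, hg, hfg⟩ := exists_scaled (G := G) hf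
    rw [AddSubgroup.mem_comap, AddSubgroup.mem_addSubgroupOf]
    refine isPrincipal_iff_exists_divisorOf.mpr ⟨g, hg, ?_⟩
    show divisorOf g = Finsupp.mapDomain r (D : Divisor K F)
    rw [← hDf, ← hff', mapDomain_divisorOf hr hfg hg]

theorem redPic_mk_eq_zero_iff (D : Divisor.degZero (K := K) (F := F)) :
    redPic hr hdeg (Pic0.mk D) = 0 ↔
      ∃ g : Fb, g ≠ 0 ∧ divisorOf g = Finsupp.mapDomain r (D : Divisor K F) := by
  refine (QuotientAddGroup.eq_zero_iff _).trans ?_
  rw [AddSubgroup.mem_addSubgroupOf]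
  exact isPrincipal_iff_exists_divisorOf

theorem redPic_mk_eq_iff (D E : Divisor.degZero (K := K) (F := F)) (n : ℤ) :
    redPic hr hdeg (Pic0.mk D) = n • redPic hr hdeg (Pic0.mk E) ↔
      ∃ g : Fb, g ≠ 0 ∧ divisorOf g =
        Finsupp.mapDomain r (D : Divisor K F) - n • Finsupp.mapDomain r (E : Divisor K F) := by
  rw [← sub_eq_zero, ← map_zsmul, ← map_sub,
    show Pic0.mk D - n • Pic0.mk E = Pic0.mk (D - n • E) from rfl, redPic_mk_eq_zero_iff]
  have : Finsupp.mapDomain r ((D - n • E : Divisor.degZero (K := K) (F := F)) : Divisor K F) =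
      Finsupp.mapDomain r (D : Divisor K F) - n • Finsupp.mapDomain r (E : Divisor K F) := by
    rw [AddSubgroupClass.coe_sub, AddSubgroupClass.coe_zsmul, ← Finsupp.mapDomain.addMonoidHom_apply,
      map_sub, map_zsmul]
    rfl
  rw [this]

end Abstract

local notation "Qb" => AlgebraicClosure ℚ

variable (M : ℕ) [NeZero M] {p : ℕ} [Fact p.Prime] (hpM : ¬ p ∣ M) (hp5 : 5 ≤ p)
  (A : ValuationSubring Qb) (hA : A.LiesOverPrime p)
  [IsFunctionField1 Qb (modularFunctionFieldBar M)]
  [IsFunctionField1 (ResidueField A) (modularFunctionFieldFullC (ResidueField A) M)]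
  [IsAlgClosed (ResidueField A)]
  {r : Place Qb (modularFunctionFieldBar M) →
    Place (ResidueField A) (modularFunctionFieldFullC (ResidueField A) M)}
  (hr : (gaussDataX0 M hpM A hA).PlaceCompat r) (hdeg : ∀ P, (r P).deg = P.deg)

set_option maxHeartbeats 1000000 in
include hp5 in
/-- The kernel of the reduction is stable under `T_ℓ`. -/
theorem redPic_heckeOperatorBar_eq_zero (ℓ : Nat.Primes) (hℓM : ¬ (ℓ : ℕ) ∣ M) (hℓp : (ℓ : ℕ) ≠ p)
    {x : JZero M} (hx : redPic hr hdeg x = 0) :
    redPic hr hdeg (heckeOperatorBar M ℓ x) = 0 := by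
  haveI : NeZero (ℓ : ℕ) := ⟨ℓ.2.ne_zero⟩
  obtain ⟨⟨X, hX⟩, rfl⟩ := Pic0.mk_surjective x
  obtain ⟨g, hg, hdg⟩ := (redPic_mk_eq_zero_iff hr hdeg ⟨X, hX⟩).mp hx
  obtain ⟨ζ, hL, hk⟩ := exists_root_of_unity (Fact.out : p.Prime) hA ℓ.2 hℓp
  obtain ⟨g', -, hg'0, hd⟩ := exists_hecke_of_reduction_eq_divisorOf M hpM A hA ℓ.2 hℓM hL hk hr
    hdeg hp5 (Divisor.mem_degZero.mp hX) hg hdg.symm
  rw [heckeOperatorBar_mk M hX, redPic_mk_eq_zero_iff]
  exact ⟨g', hg'0, hd.symm⟩

end Fermat.Agent.LevelP.StepC
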