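import Fermat.Agent.LevelP.StepC.Residues
import Fermat.Agent.LevelP.StepC.PicReduction
import Fermat.Agent.LevelP.StepC.CuspPreserve
import Fermat.Agent.LevelP.Model.Main
import Fermat.Agent.LevelP.X0.Fields

/-!
# An Eisenstein residual divisor of a non-Eisenstein eigenclass vanishes modulo `p`

With `v = u / w̄ ^ c` the divisor of `v` is supported modulo `p` on the poles of `j̄`, and so is the
one of the product of its conjugates; at a node this gives `p ∣ c (a - ℓ - 1) r`.
-/

set_option autoImplicit false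
set_option linter.style.haveILetI false
set_option linter.unusedSectionVars false
set_option synthInstance.maxHeartbeats 400000

noncomputable section

namespace Fermat.Agent.LevelP.StepC

/-- Shortcut for a slow instance search; reducibly the instance that search finds. -/
local instance (priority := high) algebraLaurentShortcutNodeCoefficient (K : Type*) [Field K]
    (S : IntermediateField K (LaurentSeries K)) : Algebra K S :=
  inferInstance

open AlgebraicCurve ModularCurve IsLocalRing Fermat.Agent.Curve Fermat.Agent.BadPrime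
open Fermat.Agent.Reduction (jBar jRes gaussDataX0 GaussData)

local notation "Qb" => AlgebraicClosure ℚ

variable {A : ValuationSubring Qb} {p M : ℕ} [Fact p.Prime] [NeZero M]
  [IsFunctionField1 Qb (modularFunctionFieldBar (M * p))]
  [IsFunctionField1 Qb (modularFunctionFieldBar M)]
  [IsFunctionField1 (ResidueField A) (modularFunctionFieldFullC (ResidueField A) M)]
  [IsAlgClosed (ResidueField A)]
  {T : TwoCompData p A (modularFunctionFieldBar (M * p))
    (modularFunctionFieldFullC (ResidueField A) M)}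
  (hT : ∀ (f : modularFunctionFieldBar (M * p))
    (g : modularFunctionFieldFullC (ResidueField A) M),
    (∃ h : f ∈ T.V false, T.red false ⟨f, h⟩ = g) ↔
      HasGaussRed (residue A) (f : LaurentSeries Qb) (g : LaurentSeries (ResidueField A)))
  (hw : ((T.w : modularFunctionFieldBar (M * p)) : LaurentSeries Qb) =
    coeffEmb Qb (modularUnitSeries p))

include hT hw in
/-- The residue of `w` is an eigenvector with eigenvalue `ℓ + 1`. -/
theorem exists_unit_relation {ℓ : ℕ} [NeZero ℓ] (hℓ : ℓ.Prime) (hℓp : ℓ ≠ p) {ζ : Aˣ}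
    (hk : IsPrimitiveRoot (Units.map (residue A).toMonoidHom ζ) ℓ) :
    ∃ c : ResidueField A, c ≠ 0 ∧
      heckeConj ℓ (Units.map (residue A).toMonoidHom ζ)
          ((T.residueAt false T.w : modularFunctionFieldFullC (ResidueField A) M) :
            LaurentSeries (ResidueField A)) =
        ((algebraMap (ResidueField A) _ c * T.residueAt false T.w ^ (ℓ + 1) :
            modularFunctionFieldFullC (ResidueField A) M) : LaurentSeries (ResidueField A)) := by
  have hu := (residueAt_spec hT T.w_false).2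
  rw [hw] at hu
  obtain ⟨c, c', hc, hc', h⟩ := exists_heckeConj_unit hℓ hk
    (p := p) (fun h => hℓp ((Nat.prime_dvd_prime_iff_eq hℓ Fact.out).mp h))
    (hasGaussRed_modularUnit_mul A hu)
  refine ⟨c / c', div_ne_zero hc hc', mul_left_cancel₀
    (fun h0 => hc' (by simpa using congrArg (fun z : LaurentSeries (ResidueField A) => z.coeff 0) h0))
    (h.trans ?_)⟩
  push_cast
  simp only [algebraMap_laurentSeries_eq_single, HahnSeries.C_apply]
  rw [← mul_assoc, mul_div_cancel₀ _
    (HahnSeries.single_ne_zero hc' : (HahnSeries.single (0 : ℤ) c' : LaurentSeries (ResidueField A)) ≠ 0)]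

set_option maxHeartbeats 2000000 in
include hT hw in
/-- The multiplicity of the nodes in an Eisenstein residual divisor is divisible by `p`. -/
theorem dvd_node_coefficient (hp5 : 5 ≤ p) (hpM : ¬ p ∣ M) (hA : A.LiesOverPrime p)
    {r : Place Qb (modularFunctionFieldBar M) →
      Place (ResidueField A) (modularFunctionFieldFullC (ResidueField A) M)}
    (hr : (gaussDataX0 M hpM A hA).PlaceCompat r) (hdeg : ∀ P, (r P).deg = P.deg)
    (hnode : ∀ y, T.On y false →
      (T.IsNode y → 0 ≤ (T.loc y false).ord (X0.jResM A M)) ∧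
      (¬ T.IsNode y → 0 ≤ (T.loc y false).ord (X0.jResM A M) →
        (T.loc y false).ord (T.residueAt false T.w) = 0))
    {D : Divisor Qb (modularFunctionFieldBar (M * p))}
    (hD : D ∈ (Divisor.degZero : AddSubgroup (Divisor Qb (modularFunctionFieldBar (M * p)))))
    {f : modularFunctionFieldBar (M * p)} (hf : f ≠ 0) (hdiv : ∀ P, ((p : ℤ) • D) P = P.ord f)
    (hv : (T.V false).valuation f = 1) {c : ℤ}
    (hc : ∀ y, T.On y false →
      (T.IsNode y → (p : ℤ) ∣ (T.loc y false).ord (T.residueAt false f) - c * T.r y) ∧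
      (¬ T.IsNode y → (p : ℤ) ∣ (T.loc y false).ord (T.residueAt false f)))
    (ℓ : Nat.Primes) (hℓM : ¬ (ℓ : ℕ) ∣ M * p) (a : ℤ)
    (hne : ¬ (p : ℤ) ∣ a - (ℓ : ℕ) - 1)
    (heig : heckeOperatorBar (M * p) ℓ (Pic0.mk ⟨D, hD⟩) = a • Pic0.mk ⟨D, hD⟩) :
    (p : ℤ) ∣ c := by
  classical
  haveI : NeZero (ℓ : ℕ) := ⟨ℓ.2.ne_zero⟩
  have hℓM' : ¬ (ℓ : ℕ) ∣ M := fun h => hℓM (h.mul_right p)
  have hℓp : (ℓ : ℕ) ≠ p := fun h => hℓM (h ▸ dvd_mul_left p M)
  obtain ⟨ζ, hL, hk⟩ := exists_root_of_unity (Fact.out : p.Prime) hA ℓ.2 hℓp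
  obtain ⟨hu0, -⟩ := residueAt_spec hT hv
  obtain ⟨hw0, -⟩ := residueAt_spec hT T.w_false
  obtain ⟨cu, hb, hcu, hb0, hHu⟩ := exists_residue_relation hT hD hf hdiv hv ℓ hℓM a heig hL hk
  obtain ⟨cw, hcw, hHw⟩ := exists_unit_relation hT hw ℓ.2 hℓp hk
  set u := T.residueAt false f with hu_def
  set w := T.residueAt false T.w with hw_def
  set v := u * w ^ (-c) with hv_def
  have hv0 : v ≠ 0 := mul_ne_zero hu0 (zpow_ne_zero _ hw0)
  set jb := X0.jResM A M with hjb
  -- at finite `j̄` the order of `v` is divisible by `p`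
  have hfin : ∀ Q : Place (ResidueField A) (modularFunctionFieldFullC (ResidueField A) M),
      0 ≤ Q.ord jb → (p : ℤ) ∣ Q.ord v := by
    intro Q hQ
    obtain ⟨y, ⟨hy, hyQ⟩, -⟩ := T.existsUnique_pt false Q
    subst hyQ
    rw [hv_def, Place.ord_mul _ hu0 (zpow_ne_zero _ hw0), Place.ord_zpow]
    by_cases hn : T.IsNode y
    · rw [show (T.loc y false).ord w = T.r y by
        rw [hw_def, T.residueAt_of_mem ((ValuationSubring.valuation_le_one_iff _ _).mp T.w_false.le)]
        exact T.red_w_ord y hn.1 hn.2 _]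
      have := (hc y hy).1 hn
      rwa [show (T.loc y false).ord u + -c * (T.r y : ℤ) =
        (T.loc y false).ord u - c * T.r y by ring]
    · rw [(hnode y hy).2 hn hQ, mul_zero, add_zero]
      exact (hc y hy).2 hn
  -- split `div v`
  set C := (divisorOf (K := ResidueField A) v).filter (fun Q => Q.ord jb < 0) with hC
  obtain ⟨W, hW⟩ := exists_eq_smul_of_dvd (divisorOf (K := ResidueField A) v - C) (n := (p : ℤ))
    fun Q => by
      rw [Finsupp.sub_apply, hC, Finsupp.filter_apply, divisorOf_apply]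
      split_ifs with h
      · rw [sub_self]; exact dvd_zero _
      · rw [sub_zero]; exact hfin Q (not_lt.mp h)
  obtain ⟨W', hW'⟩ := exists_lift_divisor hr W
  have hjRes : jb = jRes (ResidueField A) M := Subtype.ext rfl
  let s : Place (ResidueField A) (modularFunctionFieldFullC (ResidueField A) M) →
      Place Qb (modularFunctionFieldBar M) := fun Q =>
    if h : Q.ord jb < 0 then (exists_pole_lift M hpM A hA hr hdeg (hjRes ▸ h)).choose
    else Function.surjInv (surjective_reduction hr) Q
  have hrs : ∀ Q, r (s Q) = Q := fun Q => by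
    by_cases h : Q.ord jb < 0
    · simp only [s, dif_pos h]
      exact (exists_pole_lift M hpM A hA hr hdeg (hjRes ▸ h)).choose_spec.1
    · simp only [s, dif_neg h]
      exact Function.surjInv_eq _ Q
  set C' := Finsupp.mapDomain s C with hC'
  have hC'pole : ∀ P, C' P ≠ 0 → P.ord (jBar M) < 0 := by
    intro P hP
    obtain ⟨Q, hQ, rfl⟩ := Finset.mem_image.mp
      (Finsupp.mapDomain_support (Finsupp.mem_support_iff.mpr hP))
    rw [hC, Finsupp.support_filter, Finset.mem_filter] at hQ
    simp only [s, dif_pos hQ.2]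
    exact (exists_pole_lift M hpM A hA hr hdeg (hjRes ▸ hQ.2)).choose_spec.2
  have hrX : Finsupp.mapDomain r ((p : ℤ) • W' + C') = divisorOf v := by
    rw [Finsupp.mapDomain_add, Finsupp.mapDomain_smul, hW', ← Finsupp.mapDomain_comp,
      show r ∘ s = id from funext hrs, Finsupp.mapDomain_id, ← hW, sub_add_cancel]
  have hdegX : Divisor.degree ((p : ℤ) • W' + C') = 0 := by
    rw [← Reduction.degree_mapDomain_eq hdeg, hrX, degree_divisorOf]
  obtain ⟨v', hv', -, hd⟩ := exists_hecke_of_reduction_eq_divisorOf M hpM A hA ℓ.2 hℓM' hL hk hr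
    hdeg hp5 hdegX hv0 hrX
  -- the node
  obtain ⟨y, hy0, hy1⟩ := T.nonempty_node
  have hreg : 0 ≤ (T.loc y false).ord jb := (hnode y hy0).1 ⟨hy0, hy1⟩
  have hdiv' : (p : ℤ) ∣ (T.loc y false).ord v' := by
    rw [← divisorOf_apply, ← hd, map_add, map_zsmul, Finsupp.mapDomain_add, Finsupp.mapDomain_smul,
      Finsupp.add_apply, Finsupp.smul_apply, smul_eq_mul]
    refine dvd_add (dvd_mul_right _ _) ?_
    rw [show Finsupp.mapDomain r (heckeDiv M ℓ C') (T.loc y false) = 0 from ?_]
    · exact dvd_zero _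
    by_contra hne0
    obtain ⟨P, hP, hPQ⟩ := Finset.mem_image.mp
      (Finsupp.mapDomain_support (Finsupp.mem_support_iff.mpr hne0))
    have h1 := reduction_pole M hpM A hA hr hdeg
      (heckeDiv_support_pole M ℓ hC'pole P (Finsupp.mem_support_iff.mp hP))
    rw [hPQ, ← hjRes] at h1
    omega
  set au := algebraMap (ResidueField A) (modularFunctionFieldFullC (ResidueField A) M) cu with hau
  set aw := algebraMap (ResidueField A) (modularFunctionFieldFullC (ResidueField A) M) cw with haw
  have hval : v' = au * u ^ a * hb ^ p * (aw * w ^ ((ℓ : ℕ) + 1)) ^ (-c) := by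
    refine Subtype.ext ?_
    have hu' : (u : LaurentSeries (ResidueField A)) ≠ 0 := fun e => hu0 (Subtype.ext e)
    have hw' : (w : LaurentSeries (ResidueField A)) ≠ 0 := fun e => hw0 (Subtype.ext e)
    have hzp : ∀ (x : modularFunctionFieldFullC (ResidueField A) M) (n : ℤ),
        ((x ^ n : modularFunctionFieldFullC (ResidueField A) M) : LaurentSeries (ResidueField A)) =
          (x : LaurentSeries (ResidueField A)) ^ n := fun x n =>
      map_zpow₀ (modularFunctionFieldFullC (ResidueField A) M).val x n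
    rw [hv', hv_def, IntermediateField.coe_mul, hzp, heckeConj_mul hk, heckeConj_zpow hk hw',
      hHu, hHw, ← hzp, ← IntermediateField.coe_mul]
  have hau0 : au ≠ 0 := (map_ne_zero _).mpr hcu
  have haw0 : aw ≠ 0 := (map_ne_zero _).mpr hcw
  have hord : (T.loc y false).ord v' = a * (T.loc y false).ord u + p * (T.loc y false).ord hb +
      -c * ((((ℓ : ℕ) + 1 : ℕ) : ℤ) * T.r y) := by
    rw [hval, Place.ord_mul _
        (mul_ne_zero (mul_ne_zero hau0 (zpow_ne_zero _ hu0)) (pow_ne_zero _ hb0))
        (zpow_ne_zero _ (mul_ne_zero haw0 (pow_ne_zero _ hw0))),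
      Place.ord_mul _ (mul_ne_zero hau0 (zpow_ne_zero _ hu0)) (pow_ne_zero _ hb0),
      Place.ord_mul _ hau0 (zpow_ne_zero _ hu0), Place.ord_zpow, Place.ord_zpow,
      Place.ord_mul _ haw0 (pow_ne_zero _ hw0), Curve.ord_pow, Curve.ord_pow, hau, haw,
      Curve.ord_algebraMap, Curve.ord_algebraMap, zero_add, zero_add,
      show (T.loc y false).ord w = T.r y by
        rw [hw_def, T.residueAt_of_mem ((ValuationSubring.valuation_le_one_iff _ _).mp T.w_false.le)]
        exact T.red_w_ord y hy0 hy1 _]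
  rw [hord] at hdiv'
  push_cast at hdiv'
  obtain ⟨k, hk'⟩ := (hc y hy0).1 ⟨hy0, hy1⟩
  have hkey : (p : ℤ) ∣ c * (a - (ℓ : ℕ) - 1) * T.r y := by
    have h2 : c * (a - (ℓ : ℕ) - 1) * (T.r y : ℤ) =
        (a * (T.loc y false).ord u + (p : ℤ) * (T.loc y false).ord hb +
          -c * (((ℓ : ℕ) + 1) * T.r y)) - (p : ℤ) * (a * k + (T.loc y false).ord hb) := by
      linear_combination (norm := ring) (-a) * hk'
    rw [h2]
    exact dvd_sub hdiv' (dvd_mul_right _ _)
  have hp : Prime (p : ℤ) := Nat.prime_iff_prime_int.mp Fact.out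
  rcases hp.dvd_or_dvd hkey with h1 | h1
  · exact (hp.dvd_or_dvd h1).resolve_right hne
  · exact absurd (dvd_mul_of_dvd_right (Int.natCast_dvd_natCast.mp h1) 12)
      (T.not_dvd_r hp5 y hy0 hy1)

end Fermat.Agent.LevelP.StepC
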