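import Fermat.Agent.LevelP.StepC.SpecKernel
import Fermat.Agent.LevelP.StepC.HeckeDivisor
import Fermat.Agent.Reduction.Inputs
import Fermat.Agent.BadPrime.ReductionOnto

/-!
# `T_ℓ` after reduction of `X₀(M)` at a prime `p ∤ M`, `p ≠ ℓ`
-/

set_option autoImplicit false
set_option linter.unusedSectionVars false
set_option linter.style.haveILetI false
set_option synthInstance.maxHeartbeats 400000

noncomputable section

namespace Fermat.Agent.LevelP.StepC

/-- Shortcut for a slow instance search; reducibly the instance that search finds. -/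
local instance (priority := high) algebraLaurentShortcutReducedHecke (K : Type*) [Field K]
    (S : IntermediateField K (LaurentSeries K)) : Algebra K S :=
  inferInstance

open AlgebraicCurve ModularCurve IsLocalRing Fermat.Agent.Curve Fermat.Agent.Reduction
  Fermat.Agent.BadPrime

local notation "Qb" => AlgebraicClosure ℚ

variable (M : ℕ) [NeZero M] {p : ℕ} [Fact p.Prime] (hpM : ¬ p ∣ M)
  (A : ValuationSubring Qb) (hA : A.LiesOverPrime p)

local notation "F" => modularFunctionFieldBar M
local notation "Fb" => modularFunctionFieldFullC (ResidueField A) M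

/-- A series which is the Gauss reduction of a function of level `M` is a function of level `M`. -/
theorem exists_graph_of_hasGaussRed {f : F} {z : LaurentSeries (ResidueField A)}
    (h : HasGaussRed (residue A) (f : LaurentSeries Qb) z) :
    ∃ g : Fb, (g : LaurentSeries (ResidueField A)) = z ∧
      (f, g) ∈ (gaussDataX0 M hpM A hA).graph := by
  rcases eq_or_ne f 0 with rfl | hf
  · refine ⟨0, ?_, zero_mem _⟩
    exact hasGaussRed_zero.unique h
  obtain ⟨c, hc, g', hg', hcg⟩ := (gaussDataX0 M hpM A hA).exists_smul hf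
  have hcg' : HasGaussRed (residue A) ((c • f : F) : LaurentSeries Qb)
      (g' : LaurentSeries (ResidueField A)) := hcg
  rw [coeff_algebra_smul] at hcg'
  by_cases hinv : c⁻¹ ∈ A
  · have h1 := (hasGaussRed_C (π := residue A) ⟨c⁻¹, hinv⟩).mul hcg'
    rw [← mul_assoc, ← map_mul, inv_mul_cancel₀ hc, map_one, one_mul] at h1
    refine ⟨residue A ⟨c⁻¹, hinv⟩ • g', ?_, ?_⟩
    · rw [coeff_algebra_smul]; exact h1.unique h
    · show HasGaussRed (residue A) (f : LaurentSeries Qb)
        ((residue A ⟨c⁻¹, hinv⟩ • g' : Fb) : LaurentSeries (ResidueField A))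
      rw [coeff_algebra_smul]; exact h1
  · exfalso
    have hcA : c ∈ A := (A.mem_or_inv_mem c).resolve_right hinv
    have h0 : residue A ⟨c, hcA⟩ = 0 := (gaussDataX0 M hpM A hA).residue_eq_zero ⟨c, hcA⟩ hinv
    have h1 := (hasGaussRed_C (π := residue A) ⟨c, hcA⟩).mul h
    rw [h0, map_zero, zero_mul] at h1
    exact hg' (Subtype.ext (hcg'.unique h1))

variable {ℓ : ℕ} [NeZero ℓ] (hℓ : ℓ.Prime) (hℓM : ¬ ℓ ∣ M) {ζ : Aˣ}
  (hL : IsPrimitiveRoot (Units.map A.subtype.toMonoidHom ζ) ℓ)
  (hk : IsPrimitiveRoot (Units.map (residue A).toMonoidHom ζ) ℓ)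
  [IsFunctionField1 Qb (modularFunctionFieldBar M)]
  [IsFunctionField1 (ResidueField A) (modularFunctionFieldFullC (ResidueField A) M)]
  [IsAlgClosed (ResidueField A)]
  {r : Place Qb (modularFunctionFieldBar M) →
    Place (ResidueField A) (modularFunctionFieldFullC (ResidueField A) M)}
  (hr : (gaussDataX0 M hpM A hA).PlaceCompat r) (hdeg : ∀ P, (r P).deg = P.deg)

set_option maxHeartbeats 1000000 in
include hℓ hℓM hL hk hr in
/-- The reduction of `T_ℓ (div f)` is the divisor of the product of the conjugates of the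
residue of `f`. -/
theorem exists_hecke_residue {f : F} {g : Fb} (hfg : (f, g) ∈ (gaussDataX0 M hpM A hA).graph)
    (hg : g ≠ 0) :
    ∃ g' : Fb, (g' : LaurentSeries (ResidueField A)) =
        heckeConj ℓ (Units.map (residue A).toMonoidHom ζ) (g : LaurentSeries (ResidueField A)) ∧
      g' ≠ 0 ∧
      Finsupp.mapDomain r (heckeDiv M ℓ (divisorOf f)) = divisorOf g' := by
  have hf : f ≠ 0 := (gaussDataX0 M hpM A hA).ne_zero_of_mem hfg hg
  have h1 := hasGaussRed_heckeConj hL hk (f := (f : LaurentSeries Qb))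
    (g := (g : LaurentSeries (ResidueField A))) hfg
  rw [← coe_normAlong_heckeBeta hℓ hℓM (complexEmbedding : Qb →+* ℂ) hL] at h1
  obtain ⟨g', hg', hmem⟩ := exists_graph_of_hasGaussRed M hpM A hA h1
  have hg'0 : g' ≠ 0 := by
    intro h0
    rw [h0] at hg'
    exact heckeConj_ne_zero hk (fun h => hg (Subtype.ext h)) hg'.symm
  refine ⟨g', hg', hg'0, ?_⟩
  rw [heckeDiv_divisorOf M ℓ hf]
  exact mapDomain_divisorOf hr hmem hg'0

variable (hp5 : 5 ≤ p)

set_option maxHeartbeats 1000000 in
include hℓ hℓM hL hk hr hdeg hp5 in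
/-- In degree zero the reduction of `T_ℓ X` depends only on the reduction of `X`. -/
theorem hecke_eq_of_reduction_eq {X Y : Divisor Qb F}
    (hXY : Divisor.degree X = Divisor.degree Y)
    (h : Finsupp.mapDomain r X = Finsupp.mapDomain r Y) :
    Finsupp.mapDomain r (heckeDiv M ℓ X) = Finsupp.mapDomain r (heckeDiv M ℓ Y) := by
  classical
  refine apply_eq_of_reduction_eq hr hdeg
    ((Finsupp.mapDomain.addMonoidHom r).comp (heckeDiv M ℓ))
    (genusFF_le_modL M hpM A hA ⟨fun h => absurd h (by omega), fun h => absurd h (by omega)⟩)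
    (fun P => Reduction.mapDomain_nonneg (heckeDiv_nonneg M ℓ P))
    (B := (finrankAlong Qb (heckeBetaBar Qb M ℓ) : ℤ)) (fun P Q => ?_) ?_ hXY h
  · refine (apply_le_degree Reduction.one_le_deg
      (Reduction.mapDomain_nonneg (heckeDiv_nonneg M ℓ P)) Q).trans (le_of_eq ?_)
    rw [Reduction.degree_mapDomain_eq hdeg, degree_heckeDiv, Divisor.degree_single, deg_eq_one,
      Nat.cast_one, mul_one, mul_one]
  · intro f f' g hf hf' hg
    obtain ⟨a, ha, -, hda⟩ := exists_hecke_residue M hpM A hA hℓ hℓM hL hk hr hf hg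
    obtain ⟨b, hb, -, hdb⟩ := exists_hecke_residue M hpM A hA hℓ hℓM hL hk hr hf' hg
    show Finsupp.mapDomain r (heckeDiv M ℓ (divisorOf f)) =
      Finsupp.mapDomain r (heckeDiv M ℓ (divisorOf f'))
    rw [hda, hdb, show a = b from Subtype.ext (ha.trans hb.symm)]

set_option maxHeartbeats 1000000 in
include hℓ hℓM hL hk hr hdeg hp5 in
/-- The reduction of `T_ℓ X` when `X` reduces to a principal divisor. -/
theorem exists_hecke_of_reduction_eq_divisorOf {X : Divisor Qb F} (hX : Divisor.degree X = 0)
    {g : Fb} (hg : g ≠ 0) (h : Finsupp.mapDomain r X = divisorOf g) :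
    ∃ g' : Fb, (g' : LaurentSeries (ResidueField A)) =
        heckeConj ℓ (Units.map (residue A).toMonoidHom ζ) (g : LaurentSeries (ResidueField A)) ∧
      g' ≠ 0 ∧ Finsupp.mapDomain r (heckeDiv M ℓ X) = divisorOf g' := by
  obtain ⟨f, hfg⟩ := (gaussDataX0 M hpM A hA).exists_lift g
  obtain ⟨g', hg', hg'0, hd⟩ := exists_hecke_residue M hpM A hA hℓ hℓM hL hk hr hfg hg
  refine ⟨g', hg', hg'0, ?_⟩
  rw [← hd]
  refine hecke_eq_of_reduction_eq M hpM A hA hℓ hℓM hL hk hr hdeg hp5 ?_ ?_
  · rw [hX, degree_divisorOf]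
  · rw [h, mapDomain_divisorOf hr hfg hg]

include hr hdeg in
/-- The reduction of the polar divisor of `j` is the polar divisor of `j̄`. -/
theorem mapDomain_poleDivisor_j :
    Finsupp.mapDomain r (poleDivisor (jBar M)) =
      poleDivisor (Reduction.jRes (ResidueField A) M) := by
  have hjt : Transcendental Qb (jBar M) := by
    rw [Reduction.jBar_eq_jL]; exact Modular.transcendental_jL M (complexEmbedding : Qb →+* ℂ)
  exact BadPrime.mapDomain_poleDivisor (G := gaussDataX0 M hpM A hA) hr hdeg (jBar_jRes_mem M A) hjt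
    (transcendental_jRes M (ResidueField A)) (finrank_jRes M hpM A hA)

include hr hdeg in
/-- A pole of `j` reduces to a pole of `j̄`. -/
theorem reduction_pole {P : Place Qb F} (h : P.ord (jBar M) < 0) :
    (r P).ord (Reduction.jRes (ResidueField A) M) < 0 := by
  classical
  have hpol := Finsupp.ext_iff.mp (mapDomain_poleDivisor_j M hpM A hA hr hdeg) (r P)
  have h0 := poleDivisor_nonneg (K := Qb) (jBar M)
  have hle : Finsupp.single P (poleDivisor (jBar M) P) ≤ poleDivisor (jBar M) := fun Q => by
    rw [Finsupp.single_apply]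
    split_ifs with hQ
    · rw [hQ]
    · exact h0 Q
  have h3 := Reduction.mapDomain_nonneg (r := r) (sub_nonneg.mpr hle) (r P)
  rw [← Finsupp.mapDomain.addMonoidHom_apply, map_sub, Finsupp.mapDomain.addMonoidHom_apply,
    Finsupp.mapDomain.addMonoidHom_apply, Finsupp.mapDomain_single, Finsupp.sub_apply,
    Finsupp.single_eq_same, hpol, poleDivisor_apply, poleDivisor_apply, Finsupp.coe_zero,
    Pi.zero_apply] at h3
  omega

include hr hdeg in
/-- A pole of `j̄` is the reduction of a pole of `j`. -/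
theorem exists_pole_lift {Q : Place (ResidueField A) Fb}
    (h : Q.ord (Reduction.jRes (ResidueField A) M) < 0) :
    ∃ P : Place Qb F, r P = Q ∧ P.ord (jBar M) < 0 := by
  classical
  by_contra hne
  push Not at hne
  have hpol := Finsupp.ext_iff.mp (mapDomain_poleDivisor_j M hpM A hA hr hdeg) Q
  rw [poleDivisor_apply, Finsupp.mapDomain, Finsupp.sum_apply,
    Finsupp.sum, Finset.sum_eq_zero fun P _ => ?_] at hpol
  · omega
  · rw [Finsupp.single_apply]
    split_ifs with hP
    · have := hne P hP
      rw [poleDivisor_apply]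
      omega
    · rfl

end Fermat.Agent.LevelP.StepC
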