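import Fermat.Agent.LevelP.StepC.HeckeResidue
import Fermat.Prelude.Def_ModularCurve_ModularUnit

/-!
# The Gauss reduction of `Δ(q) / Δ(q ^ p)` under the product of the conjugates
-/

set_option autoImplicit false
set_option linter.style.haveILetI false

noncomputable section

namespace Fermat.Agent.LevelP.StepC

open ModularCurve IsLocalRing Fermat.Agent.BadPrime

local notation "Qb" => AlgebraicClosure ℚ

theorem coeffEmb_deltaSeries' : coeffEmb Qb ModularCurve.deltaSeries = Igusa.deltaSeries Qb := by
  rw [show ModularCurve.deltaSeries = Igusa.deltaSeries ℚ from rfl, coeffEmb,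
    Igusa.coeffMap_deltaSeries]

variable (A : ValuationSubring Qb) {p ℓ : ℕ} [NeZero p]

/-- Any Gauss reduction `g` of `Δ(q) / Δ(q ^ p)` satisfies `g * Δ̄(q ^ p) = Δ̄`. -/
theorem hasGaussRed_modularUnit_mul {g : LaurentSeries (ResidueField A)}
    (h : HasGaussRed (residue A) (coeffEmb Qb (modularUnitSeries p)) g) :
    g * qExpand _ p (Igusa.deltaSeries (ResidueField A)) = Igusa.deltaSeries (ResidueField A) := by
  have h1 := hasGaussRed_coeffMap (π := residue A) (Igusa.deltaSeries A)
  have h2 := hasGaussRed_coeffMap (π := residue A) (qExpand A p (Igusa.deltaSeries A))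
  rw [Igusa.coeffMap_deltaSeries, Igusa.coeffMap_deltaSeries] at h1
  rw [coeffMap_qExpand, coeffMap_qExpand, Igusa.coeffMap_deltaSeries,
    Igusa.coeffMap_deltaSeries] at h2
  have h3 := h.mul h2
  have e : coeffEmb Qb (modularUnitSeries p) * qExpand Qb p (Igusa.deltaSeries Qb) =
      Igusa.deltaSeries Qb := by
    rw [← coeffEmb_deltaSeries', coeffEmb, ← coeffMap_qExpand, ← map_mul, ← deltaSeriesN,
      modularUnitSeries_mul_deltaSeriesN]
  rw [e] at h3
  exact h3.unique h1

end Fermat.Agent.LevelP.StepC
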