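import Fermat.Agent.LevelP.Model.Data
import Fermat.Agent.LevelP.StepC.DivisorHelpers
import Fermat.Agent.LevelP.StepC.HeckeDivisor
import Fermat.Agent.LevelP.StepC.UnitResidue

/-!
# The residue of a function whose divisor is `p` times an eigen divisor class

If `div f = p • D` and `T_ℓ [D] = a [D]` on `X₀(Mp)` then the product of the conjugates of the
residue `u` of `f` is `c * u ^ a * hb ^ p`.
-/

set_option autoImplicit false
set_option linter.style.haveILetI false
set_option linter.unusedSectionVars false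
set_option synthInstance.maxHeartbeats 400000

noncomputable section

namespace Fermat.Agent.LevelP.StepC

open AlgebraicCurve ModularCurve IsLocalRing Fermat.Agent.Curve Fermat.Agent.BadPrime

local notation "Qb" => AlgebraicClosure ℚ

/-- Gauss reductions of integer powers. -/
theorem hasGaussRed_zpow {L k : Type*} [Field L] [Field k] {A : ValuationSubring L} {π : A →+* k}
    {f : LaurentSeries L} {g : LaurentSeries k} (h : HasGaussRed π f g) (hg : g ≠ 0) (n : ℤ) :
    HasGaussRed π (f ^ n) (g ^ n) := by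
  cases n with
  | ofNat n => simpa using h.pow n
  | negSucc n =>
    rw [zpow_negSucc, zpow_negSucc]
    exact (h.pow (n + 1)).inv (pow_ne_zero _ hg)

theorem heckeConj_inv {k : Type*} [Field k] {ℓ : ℕ} [NeZero ℓ] {ζ : kˣ}
    (hζ : IsPrimitiveRoot ζ ℓ) {x : LaurentSeries k} (hx : x ≠ 0) :
    heckeConj ℓ ζ x⁻¹ = (heckeConj ℓ ζ x)⁻¹ := by
  refine eq_inv_of_mul_eq_one_left ?_
  rw [← heckeConj_mul hζ, inv_mul_cancel₀ hx, heckeConj_one hζ]

theorem heckeConj_zpow {k : Type*} [Field k] {ℓ : ℕ} [NeZero ℓ] {ζ : kˣ}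
    (hζ : IsPrimitiveRoot ζ ℓ) {x : LaurentSeries k} (hx : x ≠ 0) (n : ℤ) :
    heckeConj ℓ ζ (x ^ n) = heckeConj ℓ ζ x ^ n := by
  cases n with
  | ofNat n => simpa using heckeConj_pow hζ x n
  | negSucc n =>
    rw [zpow_negSucc, zpow_negSucc, heckeConj_inv hζ (pow_ne_zero _ hx), heckeConj_pow hζ]

variable {A : ValuationSubring Qb} {p M : ℕ} [Fact p.Prime] [NeZero M]
  [IsFunctionField1 Qb (modularFunctionFieldBar (M * p))]
  {T : TwoCompData p A (modularFunctionFieldBar (M * p))
    (modularFunctionFieldFullC (ResidueField A) M)}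
  (hT : ∀ (f : modularFunctionFieldBar (M * p))
    (g : modularFunctionFieldFullC (ResidueField A) M),
    (∃ h : f ∈ T.V false, T.red false ⟨f, h⟩ = g) ↔
      HasGaussRed (residue A) (f : LaurentSeries Qb) (g : LaurentSeries (ResidueField A)))

include hT in
theorem residueAt_spec {f : modularFunctionFieldBar (M * p)}
    (hv : (T.V false).valuation f = 1) :
    T.residueAt false f ≠ 0 ∧ HasGaussRed (residue A) (f : LaurentSeries Qb)
      ((T.residueAt false f : modularFunctionFieldFullC (ResidueField A) M) :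
        LaurentSeries (ResidueField A)) := by
  have hmem : f ∈ T.V false := (ValuationSubring.valuation_le_one_iff _ f).mp hv.le
  rw [T.residueAt_of_mem hmem]
  refine ⟨fun h0 => ?_, (hT f _).mp ⟨hmem, rfl⟩⟩
  have h1 := (T.red_eq_zero_iff false ⟨f, hmem⟩).mp h0
  rw [ValuationSubring.mem_nonunits_iff] at h1
  exact absurd hv h1.ne

set_option maxHeartbeats 1600000 in
include hT in
/-- The relation between the residue and its conjugates. -/
theorem exists_residue_relation {D : Divisor Qb (modularFunctionFieldBar (M * p))}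
    (hD : D ∈ (Divisor.degZero : AddSubgroup (Divisor Qb (modularFunctionFieldBar (M * p)))))
    {f : modularFunctionFieldBar (M * p)} (hf : f ≠ 0) (hdiv : ∀ P, ((p : ℤ) • D) P = P.ord f)
    (hv : (T.V false).valuation f = 1) (ℓ : Nat.Primes) (hℓ : ¬ (ℓ : ℕ) ∣ M * p) (a : ℤ)
    (heig : heckeOperatorBar (M * p) ℓ (Pic0.mk ⟨D, hD⟩) = a • Pic0.mk ⟨D, hD⟩)
    {ζ : Aˣ} [NeZero (ℓ : ℕ)] (hL : IsPrimitiveRoot (Units.map A.subtype.toMonoidHom ζ) (ℓ : ℕ))
    (hk : IsPrimitiveRoot (Units.map (residue A).toMonoidHom ζ) (ℓ : ℕ)) :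
    ∃ (c : ResidueField A) (hb : modularFunctionFieldFullC (ResidueField A) M), c ≠ 0 ∧ hb ≠ 0 ∧
      heckeConj ℓ (Units.map (residue A).toMonoidHom ζ)
          ((T.residueAt false f : modularFunctionFieldFullC (ResidueField A) M) :
            LaurentSeries (ResidueField A)) =
        ((algebraMap (ResidueField A) _ c * T.residueAt false f ^ a * hb ^ p :
            modularFunctionFieldFullC (ResidueField A) M) : LaurentSeries (ResidueField A)) := by
  obtain ⟨hu0, hu⟩ := residueAt_spec hT hv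
  rw [heckeOperatorBar_mk (M * p) hD] at heig
  have hmem : heckeDiv (M * p) ℓ D - a • D ∈
      Divisor.principal (K := Qb) (F := modularFunctionFieldBar (M * p)) := by
    have h1 : Pic0.mk (⟨heckeDiv (M * p) ℓ D, heckeDiv_mem_degZero (M * p) ℓ hD⟩ - a • ⟨D, hD⟩ :
        Divisor.degZero (K := Qb) (F := modularFunctionFieldBar (M * p))) = 0 := sub_eq_zero.mpr heig
    have h2 := (QuotientAddGroup.eq_zero_iff _).mp h1
    rw [AddSubgroup.mem_addSubgroupOf] at h2
    exact h2
  obtain ⟨h₀, hh₀, hdh⟩ := isPrincipal_iff_exists_divisorOf.mp hmem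
  obtain ⟨s, hs, -, hvs⟩ := T.exists_scale false ⊥ bot_le h₀ hh₀ fun σ hσ => by
    rw [Subgroup.mem_bot.mp hσ, map_one, one_smul]
  set h := algebraMap Qb (modularFunctionFieldBar (M * p)) s * h₀ with hh
  have hsne : algebraMap Qb (modularFunctionFieldBar (M * p)) s ≠ 0 := (map_ne_zero _).mpr hs
  have hh0 : h ≠ 0 := mul_ne_zero hsne hh₀
  obtain ⟨hb0, hbred⟩ := residueAt_spec hT hvs
  have hdh' : divisorOf h = heckeDiv (M * p) ℓ D - a • D := by
    rw [hh, divisorOf_mul' hsne hh₀, divisorOf_algebraMap', zero_add, hdh]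
  set n := EichlerShimura.normAlong (heckeAlphaBar Qb (M * p) ℓ)
    (heckeBetaBar Qb (M * p) ℓ f) with hn
  have hn0 : n ≠ 0 := normAlong_heckeBeta_ne_zero (M * p) ℓ hf
  have hdf : divisorOf f = (p : ℤ) • D := Finsupp.ext fun P => (hdiv P).symm
  have hg0 : f ^ a * h ^ p ≠ 0 := mul_ne_zero (zpow_ne_zero _ hf) (pow_ne_zero _ hh0)
  obtain ⟨c, hc, hnc⟩ := exists_eq_mul_of_divisorOf_eq (K := Qb) hn0 hg0 (by
    rw [hn, ← heckeDiv_divisorOf (M * p) ℓ hf, hdf, map_zsmul,
      divisorOf_mul' (zpow_ne_zero _ hf) (pow_ne_zero _ hh0), divisorOf_zpow', divisorOf_pow', hdf,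
      hdh', smul_sub, smul_comm a (p : ℤ) D]
    abel)
  set u := T.residueAt false f
  set hb := T.residueAt false h
  have hu' : (u : LaurentSeries (ResidueField A)) ≠ 0 := fun e => hu0 (Subtype.ext e)
  have hb' : (hb : LaurentSeries (ResidueField A)) ≠ 0 := fun e => hb0 (Subtype.ext e)
  have h1 : HasGaussRed (residue A) (n : LaurentSeries Qb)
      (heckeConj ℓ (Units.map (residue A).toMonoidHom ζ) (u : LaurentSeries (ResidueField A))) := by
    rw [hn, coe_normAlong_heckeBeta ℓ.2 hℓ (complexEmbedding : Qb →+* ℂ) hL]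
    exact hasGaussRed_heckeConj hL hk hu
  set g := (u : LaurentSeries (ResidueField A)) ^ a * (hb : LaurentSeries (ResidueField A)) ^ p
    with hg
  have hgne : g ≠ 0 := mul_ne_zero (zpow_ne_zero _ hu') (pow_ne_zero _ hb')
  have h2 : HasGaussRed (residue A) ((f ^ a * h ^ p : modularFunctionFieldBar (M * p)) :
      LaurentSeries Qb) g := by
    push_cast
    exact (hasGaussRed_zpow hu hu' a).mul (hbred.pow p)
  have hg0' : ((f ^ a * h ^ p : modularFunctionFieldBar (M * p)) : LaurentSeries Qb) ≠ 0 :=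
    fun e => hg0 (Subtype.ext e)
  have h3 := h1.mul (h2.inv hgne)
  have e : (n : LaurentSeries Qb) *
      ((f ^ a * h ^ p : modularFunctionFieldBar (M * p)) : LaurentSeries Qb)⁻¹ = HahnSeries.C c := by
    rw [hnc, IntermediateField.coe_mul, mul_assoc, mul_inv_cancel₀ hg0', mul_one]
    show algebraMap Qb (LaurentSeries Qb) c = _
    rw [algebraMap_laurentSeries_eq_single, HahnSeries.C_apply]
  rw [e] at h3
  have hcA : c ∈ A := HasGaussRed.mem_of_C h3
  have h4 := (hasGaussRed_C (π := residue A) ⟨c, hcA⟩).unique h3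
  have h5 : heckeConj ℓ (Units.map (residue A).toMonoidHom ζ) (u : LaurentSeries (ResidueField A)) =
      HahnSeries.C (residue A ⟨c, hcA⟩) * g := by
    rw [h4, mul_assoc, inv_mul_cancel₀ hgne, mul_one]
  refine ⟨residue A ⟨c, hcA⟩, hb, fun h0 => ?_, hb0, ?_⟩
  · rw [h0, map_zero, zero_mul] at h5
    exact heckeConj_ne_zero hk hu' h5
  · rw [h5]
    push_cast
    rw [hg, algebraMap_laurentSeries_eq_single, HahnSeries.C_apply, mul_assoc]
    congr 2

end Fermat.Agent.LevelP.StepC
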