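import Fermat.Agent.Reduction.PlaceReduction
import Fermat.Agent.Reduction.WeakRiemann

/-!
# Divisor maps that factor through reduction

`δ : Div F → Div Fb` is effective and bounded on places and, on the divisor of a function with
non-zero residue, depends only on that residue. Then in degree zero `δ` factors through the
reduction of divisors, and preserves principality when `δ` of such a divisor is principal.
-/

set_option autoImplicit false
set_option linter.unusedSectionVars false

noncomputable section

namespace Fermat.Agent.LevelP.StepC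

open AlgebraicCurve Fermat.Agent.Curve Fermat.Agent.Reduction

variable {K : Type*} [Field K] {k : Type*} [Field k] {A : ValuationSubring K}
variable {F : Type*} [Field F] [Algebra K F] {Fb : Type*} [Field Fb] [Algebra k Fb]
variable {π : A →+* k}
variable [IsAlgClosed K] [IsAlgClosed k] [IsFunctionField1 K F] [IsFunctionField1 k Fb]
variable {G : GaussData π F Fb} {r : Place K F → Place k Fb} (hr : G.PlaceCompat r)
  (hdeg : ∀ P, (r P).deg = P.deg)

/-- A non-zero function has a multiple by a constant with non-zero residue and the same divisor. -/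
theorem exists_scaled {f : F} (hf : f ≠ 0) :
    ∃ f' : F, f' ≠ 0 ∧ divisorOf (K := K) f' = divisorOf f ∧ ∃ g : Fb, g ≠ 0 ∧
      (f', g) ∈ G.graph := by
  obtain ⟨c, hc, g, hg, hfg⟩ := G.exists_smul hf
  refine ⟨c • f, smul_ne_zero hc hf, ?_, g, hg, hfg⟩
  ext P
  rw [divisorOf_apply, divisorOf_apply, Reduction.ord_smul_of_ne_zero hc]

include hr in
theorem mapDomain_divisorOf {f : F} {g : Fb} (h : (f, g) ∈ G.graph) (hg : g ≠ 0) :
    Finsupp.mapDomain r (divisorOf (K := K) f) = divisorOf (K := k) g := by
  ext Q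
  exact hr f g h hg _ (fun P => rfl) Q

include hr in
/-- Every place is the reduction of a place. -/
theorem surjective_reduction : Function.Surjective r := by
  classical
  intro Q
  obtain ⟨g, hg0, hg⟩ := Curve.exists_uniformizer Q
  obtain ⟨f, hfg⟩ := G.exists_lift g
  by_contra hQ
  have h := hr f g hfg hg0 (divisorOf f) (fun P => rfl) Q
  rw [Finsupp.mapDomain_of_notMem_range _ _ hQ, hg] at h
  exact zero_ne_one h

include hr in
/-- Every divisor is the reduction of a divisor. -/
theorem exists_lift_divisor (E : Divisor k Fb) :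
    ∃ D : Divisor K F, Finsupp.mapDomain r D = E := by
  refine ⟨Finsupp.mapDomain (Function.surjInv (surjective_reduction hr)) E, ?_⟩
  rw [← Finsupp.mapDomain_comp,
    show r ∘ Function.surjInv (surjective_reduction hr) = id from
      funext (Function.surjInv_eq _), Finsupp.mapDomain_id]

variable {ι : Type*} (δ : Divisor K F →+ (ι →₀ ℤ))
  (hgenus : genusFF K F ≤ genusFF k Fb)
  (hpos : ∀ P, 0 ≤ δ (Finsupp.single P 1)) {B : ℤ} (hB : ∀ P Q, δ (Finsupp.single P 1) Q ≤ B)
  (hdep : ∀ (f f' : F) (g : Fb), (f, g) ∈ G.graph → (f', g) ∈ G.graph → g ≠ 0 →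
    δ (divisorOf f) = δ (divisorOf f'))

include hr hdeg hgenus hpos hB hdep in
/-- `δ` vanishes on degree zero divisors which reduce to zero. -/
theorem apply_eq_zero_of_reduction_eq_zero {X : Divisor K F} (hX : Divisor.degree X = 0)
    (hrX : Finsupp.mapDomain r X = 0) : δ X = 0 := by
  classical
  obtain ⟨c₀, hc₀⟩ := weakRiemann (K := K) (F := F)
  obtain ⟨c₁, hc₁⟩ := G.exists_redSpace_rr_eq hgenus hr hdeg
  obtain ⟨P₀⟩ := exists_place (K := K) (F := F)
  set c : ℕ := c₀ + c₁.toNat with hc
  ext Q
  set B' : ℤ := |B| with hB'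
  have hbound : ∀ E : Divisor K F, 0 ≤ E → 0 ≤ δ E Q ∧ δ E Q ≤ B' * Divisor.degree E := by
    intro E hE
    constructor
    · have := le_apply_of_effective (Reduction.one_le_deg) ((Finsupp.applyAddHom Q).comp δ)
        (M := 0) le_rfl (fun P => by simpa using hpos P Q) E hE
      simpa using this
    · have := le_apply_of_effective (Reduction.one_le_deg) (-((Finsupp.applyAddHom Q).comp δ))
        (abs_nonneg B) (fun P => by
          simp only [AddMonoidHom.neg_apply, AddMonoidHom.comp_apply, Finsupp.applyAddHom_apply]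
          linarith [le_abs_self B, hB P Q]) E hE
      simp only [AddMonoidHom.neg_apply, AddMonoidHom.comp_apply, Finsupp.applyAddHom_apply] at this
      linarith
  refine eq_zero_of_forall_le_zmul (B := -(B' * c)) fun n => ?_
  set D₀ : Divisor K F := Finsupp.single P₀ (c : ℤ) with hD₀
  have hdeg₀ : Divisor.degree D₀ = c := by
    rw [hD₀, Divisor.degree_single, Curve.deg_eq_one, Nat.cast_one, mul_one]
  obtain ⟨E, hE, f₀, hf₀, hdiv₀⟩ := hc₀ (D₀ + n • X) (by
    rw [map_add, map_zsmul, hX, smul_zero, add_zero, hdeg₀]; omega)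
  obtain ⟨f, hf, hff₀, g, hg, hfg⟩ := exists_scaled (G := G) hf₀
  have hdiv : divisorOf f = E - (D₀ + n • X) := by
    rw [hff₀]
    ext P
    rw [divisorOf_apply, hdiv₀]
  have hrg : g ∈ riemannRochSpace (Finsupp.mapDomain r D₀) := by
    refine mem_riemannRochSpace_iff.mpr fun v => Or.inr ?_
    rw [← hr f g hfg hg (divisorOf f) (fun P => rfl) v, hdiv]
    have h0 : (0 : Divisor k Fb) v ≤ Finsupp.mapDomain r E v := Reduction.mapDomain_nonneg hE v
    have hsplit : Finsupp.mapDomain r (E - (D₀ + n • X)) =
        Finsupp.mapDomain r E - Finsupp.mapDomain r D₀ := by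
      have h1 : (Finsupp.mapDomain.addMonoidHom r) X = 0 := hrX
      calc Finsupp.mapDomain r (E - (D₀ + n • X))
          = Finsupp.mapDomain.addMonoidHom r (E - (D₀ + n • X)) := rfl
        _ = _ := by rw [map_sub, map_add, map_zsmul, h1, smul_zero, add_zero]; rfl
    rw [hsplit, Finsupp.sub_apply]
    simp only [Finsupp.coe_zero, Pi.zero_apply] at h0
    omega
  rw [← hc₁ D₀ (by rw [hdeg₀]; omega)] at hrg
  obtain ⟨f', hf'D, hf'g⟩ := hrg
  have hf' : f' ≠ 0 := G.ne_zero_of_mem hf'g hg
  have hE' : 0 ≤ divisorOf f' + D₀ := fun P => by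
    have := (mem_riemannRochSpace_iff.mp hf'D P).resolve_left hf'
    simp only [Finsupp.coe_zero, Pi.zero_apply, Finsupp.add_apply, divisorOf_apply]
    omega
  have key : n • δ X = δ E - δ (divisorOf f' + D₀) := by
    rw [map_add, ← hdep f f' g hfg hf'g hg, hdiv, map_sub, map_add, map_zsmul]
    abel
  have h1 := hbound _ hE
  have h2 := hbound _ hE'
  have hd' : Divisor.degree (divisorOf f' + D₀) = (c : ℤ) := by
    rw [map_add, hdeg₀, degree_divisorOf, zero_add]
  have := congrArg (fun z : ι →₀ ℤ => z Q) key
  simp only [Finsupp.smul_apply, Finsupp.sub_apply, smul_eq_mul] at this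
  rw [hd'] at h2
  rw [this]
  linarith

include hr hdeg hgenus hpos hB hdep in
/-- `δ` depends only on the reduction, in degree zero. -/
theorem apply_eq_of_reduction_eq {X Y : Divisor K F} (hXY : Divisor.degree X = Divisor.degree Y)
    (h : Finsupp.mapDomain r X = Finsupp.mapDomain r Y) : δ X = δ Y := by
  refine sub_eq_zero.mp ?_
  rw [← map_sub]
  refine apply_eq_zero_of_reduction_eq_zero hr hdeg δ hgenus hpos hB hdep ?_ ?_
  · rw [map_sub, hXY, sub_self]
  · rw [← Finsupp.mapDomain.addMonoidHom_apply, map_sub, Finsupp.mapDomain.addMonoidHom_apply,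
      Finsupp.mapDomain.addMonoidHom_apply, h, sub_self]

end Fermat.Agent.LevelP.StepC
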